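import Mathlib

/-!
# IA-GAL / LOC-GEN (helper1), part 3a: congruence subgroups of `Aut_A(V)` (Mathlib only)

`A` a commutative ring, `V` an `A`-module, `I` an ideal of `A`.

* `congrSubgroup V I` : the automorphisms `g` of `V` with `g v - v ∈ I V` for all `v`
  (a normal subgroup of `(Module.End A V)ˣ`).
* `pow_mem_congrSubgroup_succ` : if `p ∈ 𝔪` and `g ≡ 1 mod 𝔪 ^ (k + 1)` then
  `g ^ p ≡ 1 mod 𝔪 ^ (k + 2)`.
* `pow_prime_pow_mem_congrSubgroup` : if `g ≡ 1 mod 𝔪` then `g ^ p ^ k ≡ 1 mod 𝔪 ^ (k + 1)`.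
-/

set_option autoImplicit false

namespace Fermat.Agent.S38.IA.Gal

variable {A : Type*} [CommRing A] (V : Type*) [AddCommGroup V] [Module A V]

variable {V} in
/-- Linear maps preserve `I V`. -/
theorem apply_mem_smul_top (f : Module.End A V) {I : Ideal A} {v : V}
    (hv : v ∈ I • (⊤ : Submodule A V)) : f v ∈ I • (⊤ : Submodule A V) :=
  Submodule.smul_top_le_comap_smul_top I f hv

variable {V} in
/-- A linear map with values in `J V` maps `I V` into `(I * J) V`. -/
theorem apply_mem_mul_smul_top (f : Module.End A V) {I J : Ideal A}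
    (hf : ∀ v, f v ∈ J • (⊤ : Submodule A V)) {w : V} (hw : w ∈ I • (⊤ : Submodule A V)) :
    f w ∈ (I * J) • (⊤ : Submodule A V) := by
  have h1 : Submodule.map f (I • (⊤ : Submodule A V)) ≤ (I * J) • (⊤ : Submodule A V) := by
    rw [Submodule.map_smul'', Submodule.mul_smul]
    refine Submodule.smul_mono le_rfl ?_
    rintro _ ⟨v, -, rfl⟩
    exact hf v
  exact h1 (Submodule.mem_map_of_mem hw)

/-- The congruence subgroup of level `I`: automorphisms congruent to the identity modulo `I V`. -/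
def congrSubgroup (I : Ideal A) : Subgroup (Module.End A V)ˣ where
  carrier := {g | ∀ v, (g : Module.End A V) v - v ∈ I • (⊤ : Submodule A V)}
  one_mem' := fun v => by
    rw [Units.val_one, Module.End.one_apply, sub_self]
    exact zero_mem _
  mul_mem' := fun {g h} hg hh v => by
    have h1 : ((g * h : (Module.End A V)ˣ) : Module.End A V) v - v =
        (g : Module.End A V) ((h : Module.End A V) v - v) + ((g : Module.End A V) v - v) := by
      rw [Units.val_mul, Module.End.mul_apply, map_sub]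
      abel
    rw [h1]
    exact add_mem (apply_mem_smul_top _ (hh v)) (hg v)
  inv_mem' := fun {g} hg v => by
    have h1 : ((g⁻¹ : (Module.End A V)ˣ) : Module.End A V) v - v =
        -((g⁻¹ : (Module.End A V)ˣ) : Module.End A V) ((g : Module.End A V) v - v) := by
      rw [map_sub, ← Module.End.mul_apply, ← Units.val_mul, inv_mul_cancel, Units.val_one,
        Module.End.one_apply]
      abel
    rw [h1]
    exact neg_mem (apply_mem_smul_top _ (hg v))

variable {V}

theorem mem_congrSubgroup {I : Ideal A} {g : (Module.End A V)ˣ} :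
    g ∈ congrSubgroup V I ↔ ∀ v, (g : Module.End A V) v - v ∈ I • (⊤ : Submodule A V) :=
  Iff.rfl

instance congrSubgroup_normal (I : Ideal A) : (congrSubgroup V I).Normal where
  conj_mem := fun g hg h v => by
    have h1 : ((h * g * h⁻¹ : (Module.End A V)ˣ) : Module.End A V) v - v =
        (h : Module.End A V) ((g : Module.End A V)
          (((h⁻¹ : (Module.End A V)ˣ) : Module.End A V) v) -
            ((h⁻¹ : (Module.End A V)ˣ) : Module.End A V) v) := by
      rw [map_sub, ← Module.End.mul_apply (h : Module.End A V)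
        (((h⁻¹ : (Module.End A V)ˣ) : Module.End A V)), ← Units.val_mul, mul_inv_cancel,
        Units.val_one, Module.End.one_apply]
      rfl
    rw [h1]
    exact apply_mem_smul_top _ (hg _)

theorem congrSubgroup_mono {I J : Ideal A} (h : I ≤ J) :
    congrSubgroup V I ≤ congrSubgroup V J := fun _ hg v =>
  Submodule.smul_mono h le_rfl (hg v)

/-- Telescoping: `g ^ n v - v = ∑_{i < n} g ^ i (g v - v)`. -/
theorem pow_apply_sub_eq_sum (g : Module.End A V) (v : V) (n : ℕ) :
    (g ^ n) v - v = ∑ i ∈ Finset.range n, (g ^ i) (g v - v) := by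
  induction n with
  | zero => simp
  | succ n ih =>
    rw [Finset.sum_range_succ, ← ih, map_sub, ← Module.End.mul_apply, ← pow_succ]
    abel

/-- If `p ∈ 𝔪` and `g ≡ 1 mod 𝔪 ^ (k + 1)` then `g ^ p ≡ 1 mod 𝔪 ^ (k + 2)`. -/
theorem pow_mem_congrSubgroup_succ {𝔪 : Ideal A} {p : ℕ} (hp : (p : A) ∈ 𝔪) {k : ℕ}
    {g : (Module.End A V)ˣ} (hg : g ∈ congrSubgroup V (𝔪 ^ (k + 1))) :
    g ^ p ∈ congrSubgroup V (𝔪 ^ (k + 2)) := by
  intro v
  rw [Units.val_pow_eq_pow_val, pow_apply_sub_eq_sum]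
  set w := (g : Module.End A V) v - v with hw
  have hwm : w ∈ (𝔪 ^ (k + 1)) • (⊤ : Submodule A V) := hg v
  have hle : 𝔪 ^ (k + 1) * 𝔪 ^ (k + 1) ≤ 𝔪 ^ (k + 2) := by
    rw [← pow_add]
    exact Ideal.pow_le_pow_right (by omega)
  have hterm : ∀ i : ℕ, ((g : Module.End A V) ^ i) w - w ∈
      (𝔪 ^ (k + 2)) • (⊤ : Submodule A V) := by
    intro i
    have hgi : g ^ i ∈ congrSubgroup V (𝔪 ^ (k + 1)) := pow_mem hg i
    have h1 : ∀ u, ((g : Module.End A V) ^ i - 1) u ∈ (𝔪 ^ (k + 1)) • (⊤ : Submodule A V) := by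
      intro u
      have := hgi u
      rwa [Units.val_pow_eq_pow_val] at this
    have h2 := apply_mem_mul_smul_top ((g : Module.End A V) ^ i - 1) h1 hwm
    have h3 : ((g : Module.End A V) ^ i - 1) w = ((g : Module.End A V) ^ i) w - w := rfl
    rw [h3] at h2
    exact Submodule.smul_mono hle le_rfl h2
  have hsum : ∑ i ∈ Finset.range p, ((g : Module.End A V) ^ i) w =
      (p : A) • w + ∑ i ∈ Finset.range p, (((g : Module.End A V) ^ i) w - w) := by
    rw [Finset.sum_sub_distrib, Finset.sum_const, Finset.card_range, Nat.cast_smul_eq_nsmul]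
    abel
  rw [hsum]
  refine add_mem ?_ (sum_mem (fun i _ => hterm i))
  have h4 : (p : A) • w ∈ (𝔪 * 𝔪 ^ (k + 1)) • (⊤ : Submodule A V) := by
    rw [Submodule.mul_smul]
    exact Submodule.smul_mem_smul hp hwm
  rw [← pow_succ'] at h4
  exact h4

/-- If `p ∈ 𝔪` and `g ≡ 1 mod 𝔪` then `g ^ p ^ k ≡ 1 mod 𝔪 ^ (k + 1)`. -/
theorem pow_prime_pow_mem_congrSubgroup {𝔪 : Ideal A} {p : ℕ} (hp : (p : A) ∈ 𝔪)
    {g : (Module.End A V)ˣ} (hg : g ∈ congrSubgroup V 𝔪) (k : ℕ) :
    g ^ p ^ k ∈ congrSubgroup V (𝔪 ^ (k + 1)) := by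
  induction k with
  | zero =>
    have h1 : g ^ p ^ 0 = g := by rw [pow_zero, pow_one]
    have h2 : 𝔪 ^ (0 + 1) = 𝔪 := by rw [zero_add, pow_one]
    rw [h1, h2]
    exact hg
  | succ k ih =>
    have h1 : g ^ p ^ (k + 1) = (g ^ p ^ k) ^ p := by rw [← pow_mul, ← pow_succ]
    rw [h1]
    exact pow_mem_congrSubgroup_succ hp ih

end Fermat.Agent.S38.IA.Gal
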