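import Fermat.Agent.S38.IA.Gal.H1.TameGen
import Fermat.Agent.S56.H606.Gen
import Fermat.Agent.S56.H794.LocMinA

/-!
# IA-GAL / LOC-GEN (helper1), part 2: a tame pair generates the decomposition group in every
finite-level quotient with `p`-power inertia

Proofs of the `Prop`s of `Fermat/Agent/S38/IA/Gal/LocGenSpec.lean`:
`locGenRel`, `locGenInertia`, `locGenDecomp`, `locGenAgree`, `locGenCocycle`
(and `locGenExists` in `TameGen.lean`).
-/

set_option autoImplicit false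
set_option linter.style.haveILetI false

namespace Fermat.Agent.S38.IA.Gal

open Fermat.Agent.S56 Fermat.Agent.S56.H794 Fermat.Agent.A2.H708

attribute [local instance] isAlgebraic_Qbar_h794 isGalois_Qbar_h794

universe u

variable {p q : ℕ} {P : ValuationSubring Qb} {G : Type u} [Group G] {f : GQ →* G}

/-- `p`-power exponent on inertia implies prime-to-residue-characteristic exponent. -/
theorem PPowOnInertia.primeToResChar (hp : p.Prime) (hq : q.Prime) (hpq : p ≠ q)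
    (hP : P.LiesOverPrime q) (hf : PPowOnInertia p P f) : PrimeToResChar P f := by
  intro τ hτ
  obtain ⟨m, hm⟩ := hf τ hτ
  refine ⟨p ^ m, ?_, hm⟩
  apply valuation_natCast_eq_one_of_not_dvd P hq hP
  intro hdvd
  have := (Nat.prime_dvd_prime_iff_eq hq hp).mp (hq.dvd_of_dvd_pow hdvd)
  exact hpq this.symm

/-- If `x ^ p ^ m = 1` then `x ^ p ^ n = 1` for `n ≥ m`. -/
theorem pow_prime_pow_eq_one_of_le {M : Type*} [Monoid M] {x : M} {m n : ℕ} (hmn : m ≤ n)
    (hx : x ^ p ^ m = 1) : x ^ p ^ n = 1 := by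
  obtain ⟨d, rfl⟩ := Nat.exists_eq_add_of_le hmn
  rw [pow_add, pow_mul, hx, one_pow]

/-- **LOC-GEN, the tame relation.** -/
theorem locGenRel : LocGenRel.{u} := by
  intro p q hp hq hpq P hP φ σ h G _ f hf hpow
  exact map_conj_frobenius hf (hpow.primeToResChar hp hq hpq hP) h.frob h.mem

/-- **LOC-GEN, generation of inertia.** -/
theorem locGenInertia : LocGenInertia.{u} := by
  intro p q hp hq hpq P hP φ σ h G _ f hf hpow τ hτ
  have hprime : PrimeToResChar P f := hpow.primeToResChar hp hq hpq hP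
  obtain ⟨m₁, hm₁⟩ := hpow τ hτ
  obtain ⟨m₂, hm₂⟩ := hpow σ h.mem
  -- a common exponent `p ^ (m + 1)`
  set m : ℕ := max m₁ m₂ with hm
  have hτm : f τ ^ p ^ (m + 1) = 1 :=
    pow_prime_pow_eq_one_of_le ((le_max_left m₁ m₂).trans (Nat.le_succ m)) hm₁
  have hσm : f σ ^ p ^ (m + 1) = 1 :=
    pow_prime_pow_eq_one_of_le ((le_max_right m₁ m₂).trans (Nat.le_succ m)) hm₂
  -- a `p ^ (m + 1)`-th root of `q`
  obtain ⟨c₁', hc₁'⟩ := IsAlgClosed.exists_pow_nat_eq (q : Qb) (pow_pos hp.pos (m + 1))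
  have hq0 : (q : Qb) ≠ 0 := Nat.cast_ne_zero.mpr hq.ne_zero
  have hc₁0 : c₁' ≠ 0 := by
    rintro rfl
    rw [zero_pow (pow_pos hp.pos (m + 1)).ne'] at hc₁'
    exact hq0 hc₁'.symm
  set c₁ : Qbˣ := Units.mk0 c₁' hc₁0 with hc₁def
  have hc₁ : (c₁ : Qb) ^ p ^ (m + 1) = (q : Qb) := hc₁'
  have hζ : IsPrimitiveRoot (tameHom P h.mem c₁) (p ^ (m + 1)) :=
    h.isPrimitiveRoot_tameHom hp hq hpq hP m c₁ hc₁
  have hξ : tameHom P hτ c₁ ^ p ^ (m + 1) = 1 := tameHom_root_pow_eq_one hτ (m + 1) c₁ hc₁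
  have hζ' : IsPrimitiveRoot
      ((tameHom P h.mem c₁ : (IsLocalRing.ResidueField P)ˣ) : IsLocalRing.ResidueField P)
      (p ^ (m + 1)) := IsPrimitiveRoot.coe_units_iff.mpr hζ
  haveI : NeZero (p ^ (m + 1)) := ⟨(pow_pos hp.pos (m + 1)).ne'⟩
  obtain ⟨j, -, hj⟩ := hζ'.eq_pow_of_pow_eq_one
    (ξ := ((tameHom P hτ c₁ : (IsLocalRing.ResidueField P)ˣ) : IsLocalRing.ResidueField P))
    (by rw [← Units.val_pow_eq_pow_val, hξ, Units.val_one])
  have hj' : tameHom P h.mem c₁ ^ j = tameHom P hτ c₁ :=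
    Units.ext (by rw [Units.val_pow_eq_pow_val]; exact hj)
  refine ⟨j, ?_⟩
  have hc₁U : c₁ ∉ P.unitGroup := by
    intro hU
    exact valuation_root_ne_one hP hc₁ ((ValuationSubring.mem_unitGroup_iff P c₁).mp hU)
  have hγ : τ * (σ ^ j)⁻¹ ∈ P.inertiaSubgroupIn ℚ := mul_mem hτ (inv_mem (pow_mem h.mem j))
  have h1 : f (τ * (σ ^ j)⁻¹) = 1 := by
    apply map_eq_one_of_tameHom_eq_one hf hprime hγ
    intro c hcE
    rw [tameHom_mul P hτ (inv_mem (pow_mem h.mem j)), tameHom_inv P (pow_mem h.mem j),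
      tameHom_pow P h.mem]
    obtain ⟨a, b, hab, hmem⟩ := exists_coprime_zpow_div_mem_unitGroup (K := ℚ) P
      (rankOneOver_rat P hq hP) c c₁ hc₁U
    have hv : P.valuation (((c ^ a / c₁ ^ b : Qbˣ)) : Qb) = 1 :=
      (ValuationSubring.mem_unitGroup_iff P _).mp hmem
    have hxa : tameHom P hτ c ^ a = tameHom P hτ c₁ ^ b := by
      have := tameHom_eq_one_of_valuation_eq_one P hτ _ hv
      rwa [map_div, map_zpow, map_zpow, div_eq_one] at this
    have hya : tameHom P h.mem c ^ a = tameHom P h.mem c₁ ^ b := by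
      have := tameHom_eq_one_of_valuation_eq_one P h.mem _ hv
      rwa [map_div, map_zpow, map_zpow, div_eq_one] at this
    have hxN : tameHom P hτ c ^ p ^ (m + 1) = 1 :=
      tameHom_pow_eq_one_of_map_pow_eq_one hτ hτm c hcE
    have hyN : tameHom P h.mem c ^ p ^ (m + 1) = 1 :=
      tameHom_pow_eq_one_of_map_pow_eq_one h.mem hσm c hcE
    set x := tameHom P hτ c with hx
    set y := tameHom P h.mem c with hy
    set ζ := tameHom P h.mem c₁ with hζdef
    set ξ := tameHom P hτ c₁ with hξdef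
    have hua : (x * (y ^ j)⁻¹) ^ a = 1 := by
      rw [mul_zpow, inv_zpow, ← zpow_natCast y j, ← zpow_mul, mul_comm (j : ℤ) a, zpow_mul,
        hxa, hya, ← hj', ← zpow_natCast ζ j, ← zpow_mul, ← zpow_mul, mul_comm (j : ℤ) b,
        mul_inv_cancel]
    have huN : (x * (y ^ j)⁻¹) ^ ((p ^ (m + 1) : ℕ) : ℤ) = 1 := by
      rw [zpow_natCast, mul_pow, inv_pow, ← pow_mul, mul_comm j (p ^ (m + 1)), pow_mul, hxN,
        hyN, one_pow, inv_one, mul_one]
    by_cases hdvd : (p : ℤ) ∣ a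
    · exfalso
      -- then `ζ ^ (b * p ^ m) = 1`, so `p ∣ b`
      obtain ⟨a', ha'⟩ := hdvd
      have h3 : ζ ^ (b * ((p ^ m : ℕ) : ℤ)) = 1 := by
        rw [zpow_mul, ← hya, ha', ← zpow_mul, mul_comm (p : ℤ) a', mul_assoc, mul_comm a',
          zpow_mul]
        have : (p : ℤ) * ((p ^ m : ℕ) : ℤ) = ((p ^ (m + 1) : ℕ) : ℤ) := by
          push_cast
          ring
        rw [this, zpow_natCast, hyN, one_zpow]
      have h4 := (hζ.zpow_eq_one_iff_dvd _).mp h3
      have h5 : (p : ℤ) ∣ b := by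
        have hpm : ((p ^ m : ℕ) : ℤ) ≠ 0 := by exact_mod_cast (pow_pos hp.pos m).ne'
        have h6 : ((p ^ (m + 1) : ℕ) : ℤ) = (p : ℤ) * ((p ^ m : ℕ) : ℤ) := by
          push_cast
          ring
        rw [h6] at h4
        exact (mul_dvd_mul_iff_right hpm).mp h4
      have hpu : IsUnit (p : ℤ) := hab.isUnit_of_dvd' ⟨a', ha'⟩ h5
      have hp1 : p = 1 := by
        have := Int.natAbs_of_isUnit hpu
        simpa using this
      exact hp.one_lt.ne' hp1
    · have hcop : IsCoprime a ((p ^ (m + 1) : ℕ) : ℤ) := by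
        have hprime : Prime (p : ℤ) := Nat.prime_iff_prime_int.mp hp
        have h7 : IsCoprime a (p : ℤ) := (hprime.coprime_iff_not_dvd.mpr hdvd).symm
        rw [Nat.cast_pow]
        exact h7.pow_right
      exact eq_one_of_zpow_eq_one_of_isCoprime _ hcop hua huN
  rw [map_mul, map_inv, map_pow, mul_inv_eq_one] at h1
  exact h1

/-- **LOC-GEN, generation of the decomposition group.** -/
theorem locGenDecomp : LocGenDecomp.{u} := by
  intro p q hp hq hpq P hP φ σ h G _ f hf hpow τ hτ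
  obtain ⟨E, hE, hEf⟩ := hf
  haveI := hE
  obtain ⟨n, ι, hι, hτι⟩ := Fermat.Agent.S56.H606.map_mem_decomposition_eq f hq hP E hEf
    h.frob hτ
  obtain ⟨j, hj⟩ := locGenInertia p q hp hq hpq P hP φ σ h G f ⟨E, hE, hEf⟩ hpow ι hι
  exact ⟨n, j, by rw [hτι, hj]⟩

/-- **LOC-GEN, agreement.**  Two homomorphisms agreeing at `φ` and `σ` agree on `D_P`. -/
theorem locGenAgree : LocGenAgree.{u} := by
  intro p q hp hq hpq P hP φ σ h G _ f g hf hfp hg hgp hφ hσ τ hτ
  have hF : FiniteLevel (f.prod g) := by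
    obtain ⟨E₁, hE₁, h₁⟩ := hf
    obtain ⟨E₂, hE₂, h₂⟩ := hg
    haveI := hE₁
    haveI := hE₂
    refine ⟨E₁ ⊔ E₂, IntermediateField.finiteDimensional_sup E₁ E₂, fun τ hτ => ?_⟩
    rw [MonoidHom.prod_apply, Prod.mk_eq_one]
    exact ⟨h₁ τ (fun x hx => hτ x ((le_sup_left : E₁ ≤ E₁ ⊔ E₂) hx)),
      h₂ τ (fun x hx => hτ x ((le_sup_right : E₂ ≤ E₁ ⊔ E₂) hx))⟩
  have hFp : PPowOnInertia p P (f.prod g) := by
    intro ι hι
    obtain ⟨m₁, hm₁⟩ := hfp ι hι
    obtain ⟨m₂, hm₂⟩ := hgp ι hι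
    refine ⟨max m₁ m₂, ?_⟩
    rw [MonoidHom.prod_apply, Prod.pow_mk, Prod.mk_eq_one]
    exact ⟨pow_prime_pow_eq_one_of_le (le_max_left m₁ m₂) hm₁,
      pow_prime_pow_eq_one_of_le (le_max_right m₁ m₂) hm₂⟩
  obtain ⟨n, j, hnj⟩ := locGenDecomp p q hp hq hpq P hP φ σ h (G × G) (f.prod g) hF hFp τ hτ
  rw [MonoidHom.prod_apply, MonoidHom.prod_apply, MonoidHom.prod_apply, Prod.pow_mk,
    Prod.pow_mk, Prod.mk_mul_mk, Prod.mk.injEq] at hnj
  rw [hnj.1, hnj.2, hφ, hσ]

section cocycle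

open scoped TensorProduct

variable {k : Type} [Field k] {V : Type} [AddCommGroup V] [Module k V]

/-- Powers of `dualEnd A 0`. -/
theorem dualEnd_zero_pow (A : Module.End k V) (n : ℕ) :
    dualEnd A (0 : Module.End k V) ^ n = dualEnd (A ^ n) 0 := by
  induction n with
  | zero => rw [pow_zero, pow_zero, dualEnd_one_zero]
  | succ n ih =>
    rw [pow_succ, ih, dualEnd_mul, mul_zero, zero_mul, add_zero, ← pow_succ]

/-- **LOC-GEN, cocycle form.** -/
theorem locGenCocycle : LocGenCocycle := by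
  intro p q hp hq hpq P hP φ σ h k _ ρbar hpk hunr c hc hcφ hcσ τ hτ
  have hfl : FiniteLevel (liftUnits hc) := finiteLevel_liftUnits hc
  have hpow : PPowOnInertia p P (liftUnits hc) := by
    intro ι hι
    refine ⟨1, ?_⟩
    apply Units.ext
    rw [pow_one, Units.val_pow_eq_pow_val, coe_liftUnits, Units.val_one, liftEnd_eq_dualEnd,
      hunr ι hι, mul_one]
    have hN : dualEnd (0 : Module.End k ρbar.V) (c ι) * dualEnd (0 : Module.End k ρbar.V) (c ι)
        = 0 := by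
      simp only [dualEnd_mul, zero_mul, mul_zero, add_zero, dualEnd_zero_zero]
    have h1 : dualEnd (1 : Module.End k ρbar.V) (c ι) =
        1 + dualEnd (0 : Module.End k ρbar.V) (c ι) := by
      rw [← dualEnd_one_zero, dualEnd_add, add_zero, zero_add]
    have key := one_add_pow_of_sq_zero
      (R := Module.End (DualNumber k) (DualNumber k ⊗[k] ρbar.V)) _ hN p
    rw [h1, key]
    have h2 : (p : DualNumber k) = 0 := by
      rw [← map_natCast (algebraMap k (DualNumber k)) p, hpk, map_zero]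
    have hpX : p • dualEnd (0 : Module.End k ρbar.V) (c ι) = 0 := by
      apply LinearMap.ext
      intro w
      rw [LinearMap.smul_apply, LinearMap.zero_apply]
      have : (p : DualNumber k) • (dualEnd (0 : Module.End k ρbar.V) (c ι) w) =
          p • (dualEnd (0 : Module.End k ρbar.V) (c ι) w) :=
        Nat.cast_smul_eq_nsmul (DualNumber k) p _
      rw [← this, h2, zero_smul]
    rw [hpX, add_zero]
  obtain ⟨n, j, hnj⟩ := locGenDecomp.{0} p q hp hq hpq P hP φ σ h _ (liftUnits hc) hfl hpow τ hτ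
  have hnj' := congrArg Units.val hnj
  rw [Units.val_mul, Units.val_pow_eq_pow_val, Units.val_pow_eq_pow_val, coe_liftUnits,
    coe_liftUnits, coe_liftUnits, liftEnd_eq_dualEnd, liftEnd_eq_dualEnd, liftEnd_eq_dualEnd,
    hcφ, hcσ, zero_mul, zero_mul, dualEnd_zero_pow, dualEnd_zero_pow, dualEnd_mul, mul_zero,
    zero_mul, add_zero] at hnj'
  have h0 : c τ * ρbar.ρ τ = 0 := (dualEnd_injective hnj').2
  calc c τ = c τ * ρbar.ρ τ * ρbar.ρ τ⁻¹ := by rw [mul_assoc, rho_mul_rho_inv, mul_one]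
    _ = 0 := by rw [h0, zero_mul]

end cocycle

end Fermat.Agent.S38.IA.Gal
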