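import Fermat.Agent.S38.IA.Gal.H1.LocGen
import Fermat.Agent.S38.IA.Gal.H1.Congr
import Fermat.Prelude.Def_GaloisRep_Adic

/-!
# IA-GAL / LOC-GEN (helper1), part 3b: tame pairs and adically continuous representations

`A` a local ring with `p ∈ 𝔪_A`, `ρ : G_ℚ →* End_A(V)` adically continuous (Prelude
`GaloisActionIsAdicContinuous`), residually unramified at `P | q` (`ResUnramAt`), `(φ, σ)` a
tame pair at `P` for `p ≠ q`.  Then, modulo every power of the maximal ideal:

* `adic_rel_mod`     : `ρ (φ σ φ⁻¹) ≡ ρ σ ^ q`;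
* `adic_inertia_mod` : `ρ ι ≡ ρ σ ^ j` for `ι ∈ I_P`;
* `adic_decomp_mod`  : `ρ τ ≡ ρ φ ^ a * ρ σ ^ b` for `τ ∈ D_P`;
* `adic_agree_mod`   : two such representations agreeing at `φ` and `σ` agree on `D_P`;

and exactly when `V` is `𝔪`-adically separated (`adic_rel`, `adic_agree`, `adic_unramified`;
`separated_of_noetherian`).
-/

set_option autoImplicit false
set_option linter.style.haveILetI false

namespace Fermat.Agent.S38.IA.Gal

open Fermat.Agent.S56 Fermat.Agent.S56.H794 IsLocalRing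

variable {A : Type} [CommRing A] [IsLocalRing A] {V : Type} [AddCommGroup V] [Module A V]

/-- `ρ` is trivial on `I_P` modulo the maximal ideal. -/
def ResUnramAt (P : ValuationSubring Qb) (ρ : GQ →* Module.End A V) : Prop :=
  ∀ ι ∈ P.inertiaSubgroupIn ℚ, ∀ v : V, ρ ι v - v ∈ maximalIdeal A • (⊤ : Submodule A V)

/-- `V` is `𝔪`-adically separated. -/
def AdicSeparated (A : Type) [CommRing A] [IsLocalRing A] (V : Type) [AddCommGroup V]
    [Module A V] : Prop :=
  ∀ v : V, (∀ n : ℕ, v ∈ (maximalIdeal A ^ n) • (⊤ : Submodule A V)) → v = 0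

theorem separated_of_noetherian [IsNoetherianRing A] [Module.Finite A V] : AdicSeparated A V := by
  intro v hv
  have h := Ideal.iInf_pow_smul_eq_bot_of_isLocalRing (M := V) (maximalIdeal A)
    (Ideal.IsPrime.ne_top inferInstance)
  have hmem : v ∈ ⨅ i, (maximalIdeal A ^ i) • (⊤ : Submodule A V) := by
    rw [Submodule.mem_iInf]
    exact hv
  rw [h] at hmem
  exact (Submodule.mem_bot A).mp hmem

omit [IsLocalRing A] in
/-- Two automorphisms have the same class modulo the congruence subgroup iff they are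
congruent. -/
theorem mk_congr_eq_iff (I : Ideal A) (g h : (Module.End A V)ˣ) :
    (g : (Module.End A V)ˣ ⧸ congrSubgroup V I) = h ↔
      ∀ v, (g : Module.End A V) v - (h : Module.End A V) v ∈ I • (⊤ : Submodule A V) := by
  rw [QuotientGroup.eq]
  constructor
  · intro hK v
    have h1 := hK v
    have h2 : (g : Module.End A V) v - (h : Module.End A V) v =
        -(g : Module.End A V) (((g⁻¹ * h : (Module.End A V)ˣ) : Module.End A V) v - v) := by
      rw [map_sub, ← Module.End.mul_apply, ← Units.val_mul, mul_inv_cancel_left]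
      abel
    rw [h2]
    exact neg_mem (apply_mem_smul_top _ h1)
  · intro hK v
    have h1 := hK v
    have h2 : ((g⁻¹ * h : (Module.End A V)ˣ) : Module.End A V) v - v =
        -((g⁻¹ : (Module.End A V)ˣ) : Module.End A V)
          ((g : Module.End A V) v - (h : Module.End A V) v) := by
      rw [map_sub, ← Module.End.mul_apply, ← Module.End.mul_apply, ← Units.val_mul,
        ← Units.val_mul, inv_mul_cancel, Units.val_one, Module.End.one_apply]
      abel
    rw [h2]
    exact neg_mem (apply_mem_smul_top _ h1)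

variable (ρ : GQ →* Module.End A V)

/-- The reduction of `ρ` modulo the congruence subgroup of level `𝔪 ^ n`. -/
noncomputable def redHom (n : ℕ) :
    GQ →* (Module.End A V)ˣ ⧸ congrSubgroup V (maximalIdeal A ^ n) :=
  (QuotientGroup.mk' (congrSubgroup V (maximalIdeal A ^ n))).comp ρ.toHomUnits

theorem redHom_apply (n : ℕ) (τ : GQ) :
    redHom ρ n τ = ((ρ.toHomUnits τ : (Module.End A V)ˣ) :
      (Module.End A V)ˣ ⧸ congrSubgroup V (maximalIdeal A ^ n)) := rfl

omit [IsLocalRing A] in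
theorem coe_toHomUnits (τ : GQ) : ((ρ.toHomUnits τ : (Module.End A V)ˣ) : Module.End A V) = ρ τ :=
  rfl

variable {ρ}

theorem finiteLevel_redHom (hρ : GaloisActionIsAdicContinuous A ρ) (n : ℕ) :
    FiniteLevel (redHom ρ n) := by
  obtain ⟨L, hL, h⟩ := hρ n
  refine ⟨L, hL, fun τ hτ => ?_⟩
  rw [redHom_apply, QuotientGroup.eq_one_iff]
  exact h τ hτ

theorem pPowOnInertia_redHom {p : ℕ} (hp : (p : A) ∈ maximalIdeal A)
    {P : ValuationSubring Qb} (hres : ResUnramAt P ρ) (n : ℕ) :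
    PPowOnInertia p P (redHom ρ n) := by
  intro ι hι
  refine ⟨n, ?_⟩
  rw [← map_pow, redHom_apply, QuotientGroup.eq_one_iff, map_pow]
  have h1 : ρ.toHomUnits ι ∈ congrSubgroup V (maximalIdeal A) := hres ι hι
  exact congrSubgroup_mono (Ideal.pow_le_pow_right (Nat.le_succ n))
    (pow_prime_pow_mem_congrSubgroup hp h1 n)

section tame

variable {p q : ℕ} {P : ValuationSubring Qb} {φ σ : GQ}

/-- The tame relation modulo `𝔪 ^ n`. -/
theorem adic_rel_mod (h : IsTamePair p q P φ σ) (hp : p.Prime) (hq : q.Prime) (hpq : p ≠ q)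
    (hP : P.LiesOverPrime q) (hpA : (p : A) ∈ maximalIdeal A)
    (hρ : GaloisActionIsAdicContinuous A ρ) (hres : ResUnramAt P ρ) (n : ℕ) (v : V) :
    ρ (φ * σ * φ⁻¹) v - (ρ σ ^ q) v ∈ (maximalIdeal A ^ n) • (⊤ : Submodule A V) := by
  have h1 := locGenRel p q hp hq hpq P hP φ σ h _ (redHom ρ n) (finiteLevel_redHom hρ n)
    (pPowOnInertia_redHom hpA hres n)
  rw [← map_pow, redHom_apply, redHom_apply, mk_congr_eq_iff] at h1
  have h2 := h1 v
  rwa [coe_toHomUnits, coe_toHomUnits, map_pow] at h2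

/-- Generation of inertia modulo `𝔪 ^ n`. -/
theorem adic_inertia_mod (h : IsTamePair p q P φ σ) (hp : p.Prime) (hq : q.Prime) (hpq : p ≠ q)
    (hP : P.LiesOverPrime q) (hpA : (p : A) ∈ maximalIdeal A)
    (hρ : GaloisActionIsAdicContinuous A ρ) (hres : ResUnramAt P ρ) (n : ℕ) {ι : GQ}
    (hι : ι ∈ P.inertiaSubgroupIn ℚ) :
    ∃ j : ℕ, ∀ v : V, ρ ι v - (ρ σ ^ j) v ∈ (maximalIdeal A ^ n) • (⊤ : Submodule A V) := by
  obtain ⟨j, hj⟩ := locGenInertia p q hp hq hpq P hP φ σ h _ (redHom ρ n)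
    (finiteLevel_redHom hρ n) (pPowOnInertia_redHom hpA hres n) ι hι
  refine ⟨j, fun v => ?_⟩
  rw [← map_pow, redHom_apply, redHom_apply, mk_congr_eq_iff] at hj
  have h2 := hj v
  rwa [coe_toHomUnits, coe_toHomUnits, map_pow] at h2

/-- Generation of the decomposition group modulo `𝔪 ^ n`. -/
theorem adic_decomp_mod (h : IsTamePair p q P φ σ) (hp : p.Prime) (hq : q.Prime) (hpq : p ≠ q)
    (hP : P.LiesOverPrime q) (hpA : (p : A) ∈ maximalIdeal A)
    (hρ : GaloisActionIsAdicContinuous A ρ) (hres : ResUnramAt P ρ) (n : ℕ) {τ : GQ}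
    (hτ : τ ∈ P.decompositionSubgroup ℚ) :
    ∃ a b : ℕ, ∀ v : V,
      ρ τ v - (ρ φ ^ a * ρ σ ^ b) v ∈ (maximalIdeal A ^ n) • (⊤ : Submodule A V) := by
  obtain ⟨a, b, hab⟩ := locGenDecomp p q hp hq hpq P hP φ σ h _ (redHom ρ n)
    (finiteLevel_redHom hρ n) (pPowOnInertia_redHom hpA hres n) τ hτ
  refine ⟨a, b, fun v => ?_⟩
  rw [← map_pow, ← map_pow, ← map_mul, redHom_apply, redHom_apply, mk_congr_eq_iff] at hab
  have h2 := hab v
  rwa [coe_toHomUnits, coe_toHomUnits, map_mul, map_pow, map_pow] at h2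

/-- Agreement on the decomposition group modulo `𝔪 ^ n`. -/
theorem adic_agree_mod (h : IsTamePair p q P φ σ) (hp : p.Prime) (hq : q.Prime) (hpq : p ≠ q)
    (hP : P.LiesOverPrime q) (hpA : (p : A) ∈ maximalIdeal A) {ρ' : GQ →* Module.End A V}
    (hρ : GaloisActionIsAdicContinuous A ρ) (hres : ResUnramAt P ρ)
    (hρ' : GaloisActionIsAdicContinuous A ρ') (hres' : ResUnramAt P ρ')
    (hφ : ρ φ = ρ' φ) (hσ : ρ σ = ρ' σ) (n : ℕ) {τ : GQ}
    (hτ : τ ∈ P.decompositionSubgroup ℚ) (v : V) :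
    ρ τ v - ρ' τ v ∈ (maximalIdeal A ^ n) • (⊤ : Submodule A V) := by
  have hu : ∀ g : GQ, ρ g = ρ' g → ρ.toHomUnits g = ρ'.toHomUnits g := fun g hg =>
    Units.ext hg
  have h1 := locGenAgree p q hp hq hpq P hP φ σ h _ (redHom ρ n) (redHom ρ' n)
    (finiteLevel_redHom hρ n) (pPowOnInertia_redHom hpA hres n)
    (finiteLevel_redHom hρ' n) (pPowOnInertia_redHom hpA hres' n)
    (by rw [redHom_apply, redHom_apply, hu φ hφ]) (by rw [redHom_apply, redHom_apply, hu σ hσ])
    τ hτ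
  rw [redHom_apply, redHom_apply, mk_congr_eq_iff] at h1
  exact h1 v

/-- **The tame relation** `ρ (φ σ φ⁻¹) = ρ σ ^ q`. -/
theorem adic_rel (h : IsTamePair p q P φ σ) (hp : p.Prime) (hq : q.Prime) (hpq : p ≠ q)
    (hP : P.LiesOverPrime q) (hpA : (p : A) ∈ maximalIdeal A)
    (hρ : GaloisActionIsAdicContinuous A ρ) (hres : ResUnramAt P ρ)
    (hsep : AdicSeparated A V) : ρ (φ * σ * φ⁻¹) = ρ σ ^ q := by
  apply LinearMap.ext
  intro v
  exact sub_eq_zero.mp (hsep _ (fun n => adic_rel_mod h hp hq hpq hP hpA hρ hres n v))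

/-- **Agreement**: two representations agreeing at `φ` and `σ` agree on `D_P`. -/
theorem adic_agree (h : IsTamePair p q P φ σ) (hp : p.Prime) (hq : q.Prime) (hpq : p ≠ q)
    (hP : P.LiesOverPrime q) (hpA : (p : A) ∈ maximalIdeal A) {ρ' : GQ →* Module.End A V}
    (hρ : GaloisActionIsAdicContinuous A ρ) (hres : ResUnramAt P ρ)
    (hρ' : GaloisActionIsAdicContinuous A ρ') (hres' : ResUnramAt P ρ')
    (hφ : ρ φ = ρ' φ) (hσ : ρ σ = ρ' σ) (hsep : AdicSeparated A V) {τ : GQ}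
    (hτ : τ ∈ P.decompositionSubgroup ℚ) : ρ τ = ρ' τ := by
  apply LinearMap.ext
  intro v
  exact sub_eq_zero.mp (hsep _ (fun n =>
    adic_agree_mod h hp hq hpq hP hpA hρ hres hρ' hres' hφ hσ n hτ v))

/-- **Unramifiedness**: if `ρ σ = 1` then `ρ` is trivial on `I_P`. -/
theorem adic_unramified (h : IsTamePair p q P φ σ) (hp : p.Prime) (hq : q.Prime) (hpq : p ≠ q)
    (hP : P.LiesOverPrime q) (hpA : (p : A) ∈ maximalIdeal A)
    (hρ : GaloisActionIsAdicContinuous A ρ) (hres : ResUnramAt P ρ)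
    (hsep : AdicSeparated A V) (hσ : ρ σ = 1) {ι : GQ} (hι : ι ∈ P.inertiaSubgroupIn ℚ) :
    ρ ι = 1 := by
  apply LinearMap.ext
  intro v
  refine sub_eq_zero.mp (hsep _ (fun n => ?_))
  obtain ⟨j, hj⟩ := adic_inertia_mod h hp hq hpq hP hpA hρ hres n hι
  have := hj v
  rwa [hσ, one_pow] at this

end tame

end Fermat.Agent.S38.IA.Gal
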