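import Fermat.Agent.S38.IA.Gal.H1.LocGenAdic
import Fermat.Agent.S53.Dict

/-!
# IA-GAL / LOC-GEN (helper1), part 3c: tame pairs and matrix-valued representations

`A` a local ring with `p ∈ 𝔪_A`, `r : G_ℚ →* M₂(A)` continuous (`S53.MatCont`), residually
trivial on `I_P` (`MatResUnramAt`), `(φ, σ)` a tame pair at `P | q`, `q ≠ p`.

* `mat_decomp_mod`  : `r τ ≡ r φ ^ a * r σ ^ b` modulo `𝔪 ^ n`, entrywise, for `τ ∈ D_P`;
* `mat_rel`         : `r (φ σ φ⁻¹) = r σ ^ q`                      (`A` separated);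
* `mat_agree`       : `r`, `r'` agreeing at `φ`, `σ` agree on `D_P`  (`A` separated);
* `mat_unramified`  : `r σ = 1 ⟹ r = 1` on `I_P`                    (`A` separated);
* `mat_mem_of_closed` : if the entries of `r φ`, `r σ` lie in an adically closed subring `B`,
  so do the entries of `r τ`, `τ ∈ D_P`.
-/

set_option autoImplicit false
set_option linter.style.haveILetI false

namespace Fermat.Agent.S38.IA.Gal

open Fermat.Agent.S56 Fermat.Agent.S56.H794 IsLocalRing
open Fermat.Agent.S53 (M2 matEnd MatCont toAdic mem_smul_top_pi_iff)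

variable {A : Type} [CommRing A] [IsLocalRing A]

/-- `r` is trivial on `I_P` modulo the maximal ideal. -/
def MatResUnramAt (P : ValuationSubring Qb) (r : GQ →* M2 A) : Prop :=
  ∀ ι ∈ P.inertiaSubgroupIn ℚ, ∀ i j, (r ι - 1) i j ∈ maximalIdeal A

/-- A matrix has entries in `I` iff it maps every vector into `I · A²`. -/
theorem forall_mulVec_mem_iff (I : Ideal A) (M : M2 A) :
    (∀ v : Fin 2 → A, M.mulVec v ∈ I • (⊤ : Submodule A (Fin 2 → A))) ↔ ∀ i j, M i j ∈ I := by
  constructor
  · intro h i j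
    have h1 := (mem_smul_top_pi_iff I _).mp (h (Pi.single j 1)) i
    rwa [Matrix.mulVec_single_one] at h1
  · intro h v
    rw [mem_smul_top_pi_iff]
    intro i
    simp only [Matrix.mulVec, dotProduct]
    exact Ideal.sum_mem _ fun j _ => Ideal.mul_mem_right _ _ (h i j)

omit [IsLocalRing A] in
theorem matEnd_sub_apply (M N : M2 A) (v : Fin 2 → A) :
    matEnd A M v - matEnd A N v = (M - N).mulVec v := by
  simp [Matrix.sub_mulVec]

omit [IsLocalRing A] in
theorem matEnd_apply_sub (M : M2 A) (v : Fin 2 → A) :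
    matEnd A M v - v = (M - 1).mulVec v := by
  simp [Matrix.sub_mulVec]

theorem resUnramAt_matEnd {P : ValuationSubring Qb} {r : GQ →* M2 A}
    (h : MatResUnramAt P r) : ResUnramAt P ((matEnd A).comp r) := by
  intro ι hι v
  rw [MonoidHom.comp_apply, matEnd_apply_sub]
  exact (forall_mulVec_mem_iff _ _).mpr (h ι hι) v

theorem adicContinuous_matEnd {r : GQ →* M2 A} (hr : MatCont r) :
    GaloisActionIsAdicContinuous A ((matEnd A).comp r) :=
  (toAdic r hr).isAdicContinuous

section tame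

variable {p q : ℕ} {P : ValuationSubring Qb} {φ σ : GQ} {r : GQ →* M2 A}

/-- Generation of the decomposition group modulo `𝔪 ^ n`, matrix form. -/
theorem mat_decomp_mod (h : IsTamePair p q P φ σ) (hp : p.Prime) (hq : q.Prime) (hpq : p ≠ q)
    (hP : P.LiesOverPrime q) (hpA : (p : A) ∈ maximalIdeal A)
    (hr : MatCont r) (hres : MatResUnramAt P r) (n : ℕ) {τ : GQ}
    (hτ : τ ∈ P.decompositionSubgroup ℚ) :
    ∃ a b : ℕ, ∀ i j, (r τ - r φ ^ a * r σ ^ b) i j ∈ maximalIdeal A ^ n := by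
  obtain ⟨a, b, hab⟩ := adic_decomp_mod h hp hq hpq hP hpA (adicContinuous_matEnd hr)
    (resUnramAt_matEnd hres) n hτ
  refine ⟨a, b, (forall_mulVec_mem_iff _ _).mp (fun v => ?_)⟩
  have h1 := hab v
  have e : (matEnd A) (r φ) ^ a * (matEnd A) (r σ) ^ b = matEnd A (r φ ^ a * r σ ^ b) := by
    rw [map_mul, map_pow, map_pow]
  rw [MonoidHom.comp_apply, MonoidHom.comp_apply, MonoidHom.comp_apply, e,
    matEnd_sub_apply] at h1
  exact h1

/-- **The tame relation**, matrix form. -/
theorem mat_rel (h : IsTamePair p q P φ σ) (hp : p.Prime) (hq : q.Prime) (hpq : p ≠ q)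
    (hP : P.LiesOverPrime q) (hpA : (p : A) ∈ maximalIdeal A)
    (hr : MatCont r) (hres : MatResUnramAt P r) (hsep : AdicSeparated A (Fin 2 → A)) :
    r (φ * σ * φ⁻¹) = r σ ^ q := by
  have h1 := adic_rel h hp hq hpq hP hpA (adicContinuous_matEnd hr) (resUnramAt_matEnd hres) hsep
  rw [MonoidHom.comp_apply, MonoidHom.comp_apply, ← map_pow] at h1
  exact Fermat.Agent.S53.matEnd_injective A h1

/-- **Agreement**, matrix form. -/
theorem mat_agree (h : IsTamePair p q P φ σ) (hp : p.Prime) (hq : q.Prime) (hpq : p ≠ q)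
    (hP : P.LiesOverPrime q) (hpA : (p : A) ∈ maximalIdeal A) {r' : GQ →* M2 A}
    (hr : MatCont r) (hres : MatResUnramAt P r) (hr' : MatCont r') (hres' : MatResUnramAt P r')
    (hφ : r φ = r' φ) (hσ : r σ = r' σ) (hsep : AdicSeparated A (Fin 2 → A)) {τ : GQ}
    (hτ : τ ∈ P.decompositionSubgroup ℚ) : r τ = r' τ := by
  have h1 := adic_agree h hp hq hpq hP hpA (adicContinuous_matEnd hr) (resUnramAt_matEnd hres)
    (adicContinuous_matEnd hr') (resUnramAt_matEnd hres')
    (by rw [MonoidHom.comp_apply, MonoidHom.comp_apply, hφ])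
    (by rw [MonoidHom.comp_apply, MonoidHom.comp_apply, hσ]) hsep hτ
  rw [MonoidHom.comp_apply, MonoidHom.comp_apply] at h1
  exact Fermat.Agent.S53.matEnd_injective A h1

/-- **Unramifiedness**, matrix form. -/
theorem mat_unramified (h : IsTamePair p q P φ σ) (hp : p.Prime) (hq : q.Prime) (hpq : p ≠ q)
    (hP : P.LiesOverPrime q) (hpA : (p : A) ∈ maximalIdeal A)
    (hr : MatCont r) (hres : MatResUnramAt P r) (hsep : AdicSeparated A (Fin 2 → A))
    (hσ : r σ = 1) {ι : GQ} (hι : ι ∈ P.inertiaSubgroupIn ℚ) : r ι = 1 := by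
  have h1 := adic_unramified h hp hq hpq hP hpA (adicContinuous_matEnd hr)
    (resUnramAt_matEnd hres) hsep (by rw [MonoidHom.comp_apply, hσ, map_one]) hι
  rw [MonoidHom.comp_apply, ← map_one (matEnd A)] at h1
  exact Fermat.Agent.S53.matEnd_injective A h1

omit [IsLocalRing A] in
/-- Entries of products and powers of matrices with entries in a subring. -/
theorem entries_mul_mem (B : Subring A) {M N : M2 A} (hM : ∀ i j, M i j ∈ B)
    (hN : ∀ i j, N i j ∈ B) : ∀ i j, (M * N) i j ∈ B := by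
  intro i j
  rw [Matrix.mul_apply]
  exact Subring.sum_mem _ fun k _ => B.mul_mem (hM i k) (hN k j)

omit [IsLocalRing A] in
theorem entries_pow_mem (B : Subring A) {M : M2 A} (hM : ∀ i j, M i j ∈ B) (n : ℕ) :
    ∀ i j, (M ^ n) i j ∈ B := by
  induction n with
  | zero =>
    intro i j
    rw [pow_zero, Matrix.one_apply]
    split_ifs
    · exact B.one_mem
    · exact B.zero_mem
  | succ n ih =>
    rw [pow_succ]
    exact entries_mul_mem B ih hM

/-- **Closed subrings.**  If the entries of `r φ` and `r σ` lie in a subring `B` of `A` which is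
closed for the `𝔪`-adic topology, so do the entries of `r τ` for every `τ ∈ D_P`. -/
theorem mat_mem_of_closed (h : IsTamePair p q P φ σ) (hp : p.Prime) (hq : q.Prime) (hpq : p ≠ q)
    (hP : P.LiesOverPrime q) (hpA : (p : A) ∈ maximalIdeal A)
    (hr : MatCont r) (hres : MatResUnramAt P r) (B : Subring A)
    (hB : ∀ x : A, (∀ n : ℕ, ∃ b ∈ B, x - b ∈ maximalIdeal A ^ n) → x ∈ B)
    (hφ : ∀ i j, r φ i j ∈ B) (hσ : ∀ i j, r σ i j ∈ B) {τ : GQ}
    (hτ : τ ∈ P.decompositionSubgroup ℚ) (i j : Fin 2) : r τ i j ∈ B := by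
  refine hB _ (fun n => ?_)
  obtain ⟨a, b, hab⟩ := mat_decomp_mod h hp hq hpq hP hpA hr hres n hτ
  exact ⟨(r φ ^ a * r σ ^ b) i j,
    entries_mul_mem B (entries_pow_mem B hφ a) (entries_pow_mem B hσ b) i j, hab i j⟩

end tame

end Fermat.Agent.S38.IA.Gal
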