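import Mathlib

/-!
# IA-GAL (helper1): `2 × 2` matrix algebra used by the integrator (Mathlib only)

* `m2_diag_sub_mem` : if `M₀₀ - M₁₁`, `M₀₁` and `det M - c²` lie in an ideal `I`, `2` is invertible
  and `tr M + 2c` is a unit, then `M₀₀ - c`, `M₁₁ - c ∈ I`  (the trace is a function of the
  traceless coordinates and of the determinant);
* `m2_sq_zero_of_unip` : `tr S = 2`, `det S = 1 ⟹ (S - 1)² = 0` (Cayley–Hamilton);
* `m2_one_add_pow` : `N² = 0 ⟹ (1 + N)^j = 1 + j • N`;
* `m2_charpoly_eq_of_forall_congr` : over a Noetherian local ring, if `M` is congruent to a power of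
  `S` modulo every power of the maximal ideal and `tr S = 2`, `det S = 1`, then
  `charpoly M = (X - 1)²`.
-/

set_option autoImplicit false

namespace Fermat.Agent.S38.IA.Gal

open Polynomial IsLocalRing

section Diag

variable {R : Type*} [CommRing R]

theorem m2_diag_sub_mem (I : Ideal R) (M : Matrix (Fin 2) (Fin 2) R) (c h : R) (h2 : 2 * h = 1)
    (hd : M 0 0 - M 1 1 ∈ I) (ho : M 0 1 ∈ I) (hdet : M.det - c ^ 2 ∈ I)
    (hu : IsUnit (M 0 0 + M 1 1 + 2 * c)) : M 0 0 - c ∈ I ∧ M 1 1 - c ∈ I := by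
  have hkey : (M 0 0 + M 1 1 - 2 * c) * (M 0 0 + M 1 1 + 2 * c) =
      (M 0 0 - M 1 1) * (M 0 0 - M 1 1) + 4 * M 1 0 * M 0 1 + 4 * (M.det - c ^ 2) := by
    rw [Matrix.det_fin_two]
    ring
  have h1 : (M 0 0 + M 1 1 - 2 * c) * (M 0 0 + M 1 1 + 2 * c) ∈ I := by
    rw [hkey]
    exact I.add_mem (I.add_mem (I.mul_mem_left _ hd) (I.mul_mem_left _ ho))
      (I.mul_mem_left _ hdet)
  have h3 : M 0 0 + M 1 1 - 2 * c ∈ I := (Ideal.mul_unit_mem_iff_mem I hu).mp h1
  constructor
  · have e : M 0 0 - c = h * ((M 0 0 + M 1 1 - 2 * c) + (M 0 0 - M 1 1)) := by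
      linear_combination (c - M 0 0) * h2
    rw [e]
    exact I.mul_mem_left _ (I.add_mem h3 hd)
  · have e : M 1 1 - c = h * ((M 0 0 + M 1 1 - 2 * c) - (M 0 0 - M 1 1)) := by
      linear_combination (c - M 1 1) * h2
    rw [e]
    exact I.mul_mem_left _ (I.sub_mem h3 hd)

end Diag

section Unip

variable {A : Type*} [CommRing A]

theorem m2_sq_zero_of_unip (S : Matrix (Fin 2) (Fin 2) A) (htr : S.trace = 2)
    (hdet : S.det = 1) : (S - 1) * (S - 1) = 0 := by
  rw [Matrix.trace_fin_two] at htr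
  rw [Matrix.det_fin_two] at hdet
  ext i j
  fin_cases i <;> fin_cases j <;>
    simp only [Matrix.mul_apply, Fin.sum_univ_two, Matrix.sub_apply, Matrix.one_apply_eq,
      Matrix.zero_apply, Fin.zero_eta, Fin.mk_one, Fin.isValue, ne_eq, zero_ne_one, one_ne_zero,
      not_false_eq_true, Matrix.one_apply_ne, sub_zero]
  · linear_combination (S 0 0) * htr - hdet
  · linear_combination (S 0 1) * htr
  · linear_combination (S 1 0) * htr
  · linear_combination (S 1 1) * htr - hdet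

theorem m2_one_add_pow (N : Matrix (Fin 2) (Fin 2) A) (hN : N * N = 0) (j : ℕ) :
    (1 + N) ^ j = 1 + j • N := by
  induction j with
  | zero => simp
  | succ j ih =>
    rw [pow_succ, ih, add_mul, mul_add, mul_add, one_mul, mul_one, one_mul, smul_mul_assoc, hN,
      smul_zero, add_zero, succ_nsmul]
    abel

theorem m2_trace_pow_of_unip (S : Matrix (Fin 2) (Fin 2) A) (htr : S.trace = 2) (hdet : S.det = 1)
    (j : ℕ) : (S ^ j).trace = 2 := by
  have hN := m2_sq_zero_of_unip S htr hdet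
  have hS : S = 1 + (S - 1) := by abel
  have htrN : (S - 1).trace = 0 := by
    rw [Matrix.trace_sub, htr, Matrix.trace_one]
    simp
  rw [hS, m2_one_add_pow _ hN, Matrix.trace_add, Matrix.trace_smul, htrN, smul_zero,
    add_zero, Matrix.trace_one]
  simp

theorem m2_det_pow_of_unip (S : Matrix (Fin 2) (Fin 2) A) (hdet : S.det = 1) (j : ℕ) :
    (S ^ j).det = 1 := by
  rw [Matrix.det_pow, hdet, one_pow]

/-- Congruent matrices have congruent traces and determinants. -/
theorem m2_trace_sub_mem (I : Ideal A) (M M' : Matrix (Fin 2) (Fin 2) A)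
    (h : ∀ i k, (M - M') i k ∈ I) : M.trace - M'.trace ∈ I := by
  rw [Matrix.trace_fin_two, Matrix.trace_fin_two]
  have h0 := h 0 0
  have h1 := h 1 1
  rw [Matrix.sub_apply] at h0 h1
  have e : M 0 0 + M 1 1 - (M' 0 0 + M' 1 1) = (M 0 0 - M' 0 0) + (M 1 1 - M' 1 1) := by ring
  rw [e]
  exact I.add_mem h0 h1

theorem m2_det_sub_mem (I : Ideal A) (M M' : Matrix (Fin 2) (Fin 2) A)
    (h : ∀ i k, (M - M') i k ∈ I) : M.det - M'.det ∈ I := by
  rw [Matrix.det_fin_two, Matrix.det_fin_two]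
  have h00 := h 0 0
  have h01 := h 0 1
  have h10 := h 1 0
  have h11 := h 1 1
  rw [Matrix.sub_apply] at h00 h01 h10 h11
  have e : M 0 0 * M 1 1 - M 0 1 * M 1 0 - (M' 0 0 * M' 1 1 - M' 0 1 * M' 1 0) =
      M 1 1 * (M 0 0 - M' 0 0) + M' 0 0 * (M 1 1 - M' 1 1) - M 1 0 * (M 0 1 - M' 0 1) -
        M' 0 1 * (M 1 0 - M' 1 0) := by ring
  rw [e]
  exact I.sub_mem (I.sub_mem (I.add_mem (I.mul_mem_left _ h00) (I.mul_mem_left _ h11))
    (I.mul_mem_left _ h01)) (I.mul_mem_left _ h10)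

end Unip

section Krull

variable {A : Type} [CommRing A] [IsLocalRing A] [IsNoetherianRing A]

theorem krull_eq_of_forall_sub_mem {x y : A} (h : ∀ n : ℕ, x - y ∈ maximalIdeal A ^ n) : x = y := by
  have h1 : x - y ∈ ⨅ n : ℕ, maximalIdeal A ^ n := by
    rw [Ideal.mem_iInf]
    exact h
  rw [Ideal.iInf_pow_eq_bot_of_isLocalRing (maximalIdeal A) (Ideal.IsPrime.ne_top inferInstance),
    Ideal.mem_bot] at h1
  exact sub_eq_zero.mp h1

/-- If `M` is congruent to a power of `S` modulo every power of the maximal ideal and `S` is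
unipotent (`tr S = 2`, `det S = 1`), then `M` is unipotent. -/
theorem m2_charpoly_eq_of_forall_congr (M S : Matrix (Fin 2) (Fin 2) A) (htr : S.trace = 2)
    (hdet : S.det = 1)
    (h : ∀ n : ℕ, ∃ j : ℕ, ∀ i k, (M - S ^ j) i k ∈ maximalIdeal A ^ n) :
    M.charpoly = (X - 1) ^ 2 := by
  have h1 : M.trace = 2 := by
    apply krull_eq_of_forall_sub_mem
    intro n
    obtain ⟨j, hj⟩ := h n
    have := m2_trace_sub_mem _ M (S ^ j) hj
    rwa [m2_trace_pow_of_unip S htr hdet] at this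
  have h2 : M.det = 1 := by
    apply krull_eq_of_forall_sub_mem
    intro n
    obtain ⟨j, hj⟩ := h n
    have := m2_det_sub_mem _ M (S ^ j) hj
    rwa [m2_det_pow_of_unip S hdet] at this
  rw [Matrix.charpoly_fin_two, h1, h2]
  simp only [map_ofNat, map_one]
  ring

end Krull

end Fermat.Agent.S38.IA.Gal
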