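import Fermat.Agent.S38.IA.Gal.LocGenSpec
import Fermat.Agent.S56.H794.TameRat
import Fermat.Agent.A2.IF.H429.Inertia
import Fermat.Agent.S37.H99.FrobAt

/-!
# IA-GAL / LOC-GEN (helper1), part 1: existence of tame pairs and the tame character of `σ`

* `valuation_sub_one_eq_one` : a nontrivial `p`-th root of unity `u` has `v (u - 1) = 1` at a
  valuation ring in which `p` is a unit.
* `exists_inertia_moves` : some element of `I_P` moves a given `p`-th root of `q`
  (the inertia field is unramified, landed `A2.IF.H429.exists_zpow_of_mem_inertiaField`).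
* `locGenExists` : `LocGenExists`.
* `IsTamePair.tameHom_ne_one`, `IsTamePair.isPrimitiveRoot_tameHom` : the tame character of
  `σ` at a `p ^ m`-th root of `q` is a primitive `p ^ m`-th root of unity.
-/

set_option autoImplicit false
set_option linter.style.haveILetI false

namespace Fermat.Agent.S38.IA.Gal

open Fermat.Agent.S56 Fermat.Agent.S56.H794 Fermat.Agent.A2.H708

attribute [local instance] isAlgebraic_Qbar_h794 isGalois_Qbar_h794

section general

variable {L : Type*} [Field L] (A : ValuationSubring L)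

/-- A root of unity has valuation one. -/
theorem valuation_eq_one_of_pow_eq_one {u : L} {n : ℕ} (hn : n ≠ 0) (hu : u ^ n = 1) :
    A.valuation u = 1 := by
  have h : A.valuation u ^ n = 1 := by rw [← map_pow, hu, map_one]
  rcases lt_trichotomy (A.valuation u) 1 with h1 | h1 | h1
  · exact absurd h (pow_lt_one₀ zero_le h1 hn).ne
  · exact h1
  · exact absurd h (one_lt_pow₀ h1 hn).ne'

/-- A nontrivial `n`-th root of unity is not congruent to `1` modulo the maximal ideal of a
valuation ring in which `n` is a unit. -/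
theorem valuation_sub_one_eq_one {n : ℕ} (hnv : A.valuation (n : L) = 1) {u : L}
    (hu : u ^ n = 1) (hu1 : u ≠ 1) : A.valuation (u - 1) = 1 := by
  have hn0 : n ≠ 0 := by
    rintro rfl
    simp at hnv
  have hvu : A.valuation u = 1 := valuation_eq_one_of_pow_eq_one A hn0 hu
  have hgs : ∀ i : ℕ, A.valuation (∑ j ∈ Finset.range i, u ^ j) ≤ 1 := fun i =>
    Valuation.map_sum_le _ (fun j _ => by rw [map_pow, hvu, one_pow])
  have hle : A.valuation (u - 1) ≤ 1 := by
    have := A.valuation.map_sub u 1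
    rw [hvu, map_one, max_self] at this
    exact this
  have hsum0 : ∑ i ∈ Finset.range n, u ^ i = 0 := by
    have h := mul_geom_sum u n
    rw [hu, sub_self] at h
    rcases mul_eq_zero.mp h with h | h
    · exact absurd (sub_eq_zero.mp h) hu1
    · exact h
  have hsum : ∑ i ∈ Finset.range n, (u ^ i - 1) = -(n : L) := by
    rw [Finset.sum_sub_distrib, hsum0, Finset.sum_const, Finset.card_range, nsmul_eq_mul,
      mul_one, zero_sub]
  have hterm : ∀ i ∈ Finset.range n, A.valuation (u ^ i - 1) ≤ A.valuation (u - 1) := by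
    intro i _
    rw [← mul_geom_sum u i, map_mul]
    exact mul_le_of_le_one_right zero_le (hgs i)
  have h1 : A.valuation (-(n : L)) ≤ A.valuation (u - 1) := by
    rw [← hsum]
    exact Valuation.map_sum_le _ hterm
  rw [Valuation.map_neg, hnv] at h1
  exact le_antisymm hle h1

end general

section tame

variable {K L : Type*} [Field K] [Field L] [Algebra K L] [Algebra.IsAlgebraic K L]
  (A : ValuationSubring L)

/-- If `τ ∈ I_A` fixes `c ^ n`, with `n` a unit of `A`, but moves `c`, then the tame character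
of `τ` is nontrivial at `c`. -/
theorem tameHom_ne_one_of_pow_fixed {τ : L ≃ₐ[K] L} (hτ : τ ∈ A.inertiaSubgroupIn K) {n : ℕ}
    (hnv : A.valuation (n : L) = 1) (c : Lˣ) (hc : τ ((c : L) ^ n) = (c : L) ^ n)
    (hne : τ (c : L) ≠ c) : tameHom A hτ c ≠ 1 := by
  intro h1
  rw [tameHom_eq_one_iff] at h1
  have hc0 : (c : L) ≠ 0 := c.ne_zero
  have hu : (τ (c : L) / c) ^ n = 1 := by
    rw [div_pow, ← map_pow, hc, div_self (pow_ne_zero n hc0)]
  have hu1 : τ (c : L) / c ≠ 1 := by
    intro h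
    exact hne ((div_eq_one_iff_eq hc0).mp h)
  have hv := valuation_sub_one_eq_one A hnv hu hu1
  have h2 : τ (c : L) - c = (τ (c : L) / c - 1) * c := by
    field_simp
  rw [h2, map_mul, hv, one_mul] at h1
  exact lt_irrefl _ h1

omit [Algebra.IsAlgebraic K L] in
/-- Elements of the inertia group fix the `n`-th roots of unity, `n` a unit of `A`. -/
theorem apply_eq_of_pow_eq_one {τ : L ≃ₐ[K] L} (hτ : τ ∈ A.inertiaSubgroupIn K) {n : ℕ}
    (hnv : A.valuation (n : L) = 1) {u : L} (hu : u ^ n = 1) : τ u = u := by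
  by_contra hne
  have hn0 : n ≠ 0 := by
    rintro rfl
    simp at hnv
  have hu0 : u ≠ 0 := by
    rintro rfl
    rw [zero_pow hn0] at hu
    exact zero_ne_one hu
  have hvu : A.valuation u = 1 := valuation_eq_one_of_pow_eq_one A hn0 hu
  have hw : (τ u / u) ^ n = 1 := by
    rw [div_pow, ← map_pow, hu, map_one, div_one]
  have hw1 : τ u / u ≠ 1 := fun h => hne ((div_eq_one_iff_eq hu0).mp h)
  have hv := valuation_sub_one_eq_one A hnv hw hw1
  have h2 : τ u - u = (τ u / u - 1) * u := by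
    field_simp
  have h3 := valuation_sub_lt_one_of_mem_inertiaIn A hτ hvu.le
  rw [h2, map_mul, hv, hvu, one_mul] at h3
  exact lt_irrefl _ h3

end tame

section rat

variable {p q : ℕ} {P : ValuationSubring Qb}

/-- The valuation of `q` at `P | q` is `< 1` and nonzero. -/
theorem valuation_prime_lt_one (hP : P.LiesOverPrime q) : P.valuation (q : Qb) < 1 :=
  P.mem_nonunits_iff.mp hP

theorem valuation_prime_ne_zero (hq : q.Prime) : P.valuation (q : Qb) ≠ 0 :=
  (Valuation.ne_zero_iff _).mpr (Nat.cast_ne_zero.mpr hq.ne_zero)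

/-- A root of `q` is not a unit at `P | q`. -/
theorem valuation_root_ne_one (hP : P.LiesOverPrime q) {n : ℕ} {c : Qb}
    (hc : c ^ n = (q : Qb)) : P.valuation c ≠ 1 := by
  intro h
  have h1 : P.valuation (q : Qb) = 1 := by rw [← hc, map_pow, h, one_pow]
  exact (valuation_prime_lt_one hP).ne h1

/-- Some element of the inertia group at `P | q` moves a given `p`-th root of `q`. -/
theorem exists_inertia_moves (hp : p.Prime) (hq : q.Prime) (hP : P.LiesOverPrime q)
    {c : Qb} (hc : c ^ p = (q : Qb)) : ∃ σ ∈ P.inertiaSubgroupIn ℚ, σ c ≠ c := by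
  by_contra hcon
  have hfix : ∀ σ ∈ P.inertiaSubgroupIn ℚ, σ c = c := by
    intro σ hσ
    by_contra h
    exact hcon ⟨σ, hσ, h⟩
  have hq0 : (q : Qb) ≠ 0 := Nat.cast_ne_zero.mpr hq.ne_zero
  have hc0 : c ≠ 0 := by
    rintro rfl
    rw [zero_pow hp.ne_zero] at hc
    exact hq0 hc.symm
  have hmem : c ∈ Fermat.Agent.A2.IF.H429.inertiaField P :=
    (Fermat.Agent.A2.IF.H429.mem_inertiaField_iff P).mpr hfix
  obtain ⟨k, hk⟩ := Fermat.Agent.A2.IF.H429.exists_zpow_of_mem_inertiaField P q hq hP c hmem hc0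
  have hvq0 : P.valuation (q : Qb) ≠ 0 := valuation_prime_ne_zero hq
  have hvq1 : P.valuation (q : Qb) < 1 := valuation_prime_lt_one hP
  have hvc : P.valuation c = P.valuation (q : Qb) ^ k := by
    rw [map_div₀, map_zpow₀] at hk
    exact (div_eq_one_iff_eq (zpow_ne_zero k hvq0)).mp hk
  have h1 : P.valuation (q : Qb) ^ (k * (p : ℤ) - 1) = 1 := by
    rw [zpow_sub₀ hvq0, zpow_one, zpow_mul, ← hvc, zpow_natCast, ← map_pow, hc,
      div_self hvq0]
  have h2 := (zpow_eq_one_iff_right₀ (zero_le) hvq1.ne).mp h1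
  have h3 : (p : ℤ) ∣ 1 := ⟨k, by linarith⟩
  have h4 : p ∣ 1 := by exact_mod_cast h3
  exact hp.one_lt.ne' (Nat.dvd_one.mp h4)

/-- **LOC-GEN, existence of tame pairs.** -/
theorem locGenExists : LocGenExists := by
  intro p q hp hq hpq P hP
  obtain ⟨φ, hφ⟩ := Fermat.Agent.S37.H99.exists_isFrobeniusAt q hq P hP
  obtain ⟨c₀, hc₀⟩ := IsAlgClosed.exists_pow_nat_eq (q : Qb) hp.pos
  obtain ⟨σ, hσ, hσc⟩ := exists_inertia_moves hp hq hP hc₀
  refine ⟨φ, σ, hφ, hσ, fun c hc hfix => hσc ?_⟩
  have hpv : P.valuation ((p : ℕ) : Qb) = 1 := valuation_prime_eq_one hq hP hp hpq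
  have hq0 : (q : Qb) ≠ 0 := Nat.cast_ne_zero.mpr hq.ne_zero
  have hc0 : c ≠ 0 := by
    rintro rfl
    rw [zero_pow hp.ne_zero] at hc
    exact hq0 hc.symm
  have hu : (c₀ / c) ^ p = 1 := by
    rw [div_pow, hc, hc₀, div_self hq0]
  have hσu := apply_eq_of_pow_eq_one P hσ hpv hu
  have h1 : c₀ = c₀ / c * c := by field_simp
  rw [h1, map_mul, hσu, hfix]

/-- The tame character of `σ` is nontrivial at every `p`-th root of `q`. -/
theorem IsTamePair.tameHom_ne_one {φ σ : GQ} (h : IsTamePair p q P φ σ) (hp : p.Prime)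
    (hq : q.Prime) (hpq : p ≠ q) (hP : P.LiesOverPrime q) (c : Qbˣ)
    (hc : (c : Qb) ^ p = (q : Qb)) : tameHom P h.mem c ≠ 1 := by
  have hpv : P.valuation ((p : ℕ) : Qb) = 1 := valuation_prime_eq_one hq hP hp hpq
  refine tameHom_ne_one_of_pow_fixed P h.mem hpv c ?_ (h.moves c hc)
  rw [hc]
  exact map_natCast σ q

/-- The tame character of any element of `I_P` at a `p ^ m`-th root of `q` is a
`p ^ m`-th root of unity. -/
theorem tameHom_root_pow_eq_one {τ : GQ} (hτ : τ ∈ P.inertiaSubgroupIn ℚ) (m : ℕ) (c : Qbˣ)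
    (hc : (c : Qb) ^ p ^ m = (q : Qb)) : tameHom P hτ c ^ p ^ m = 1 := by
  refine tameHom_pow_eq_one P hτ c (p ^ m) (q : ℚ) 1 (map_one _) ?_
  rw [hc, mul_one]
  exact (map_natCast (algebraMap ℚ Qb) q).symm

/-- The tame character of `σ` at a `p ^ (m + 1)`-th root of `q` is a primitive
`p ^ (m + 1)`-th root of unity. -/
theorem IsTamePair.isPrimitiveRoot_tameHom {φ σ : GQ} (h : IsTamePair p q P φ σ) (hp : p.Prime)
    (hq : q.Prime) (hpq : p ≠ q) (hP : P.LiesOverPrime q) (m : ℕ) (c : Qbˣ)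
    (hc : (c : Qb) ^ p ^ (m + 1) = (q : Qb)) :
    IsPrimitiveRoot (tameHom P h.mem c) (p ^ (m + 1)) := by
  haveI : Fact p.Prime := ⟨hp⟩
  have h1 : tameHom P h.mem c ^ p ^ (m + 1) = 1 := tameHom_root_pow_eq_one h.mem (m + 1) c hc
  have h2 : ¬ tameHom P h.mem c ^ p ^ m = 1 := by
    rw [← map_pow]
    refine h.tameHom_ne_one hp hq hpq hP (c ^ p ^ m) ?_
    rw [Units.val_pow_eq_pow_val, ← pow_mul, ← pow_succ]
    exact hc
  have hord := orderOf_eq_prime_pow h2 h1
  rw [← hord]
  exact IsPrimitiveRoot.orderOf _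

end rat

end Fermat.Agent.S38.IA.Gal
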