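import Fermat.Agent.S38.IA.Gal.H1.LocGenMat
import Fermat.Agent.S38.IA.Gal.H1.MatAlg
import Fermat.Agent.Lib.Cheb.H476.FrobConj
import Fermat.Agent.S59.H659.Core
import Fermat.Agent.S59.H659.Basic
import Fermat.Agent.S56.H966.CondBC

/-!
# IA-GAL (helper1): unipotent at the tame generator ⟹ unipotent on inertia

`A` Noetherian local, `p ∈ 𝔪_A`, `r : G_ℚ →* M₂(A)` continuous, residually trivial on `I_P`,
`(φ, σ)` a tame pair at `P | q`, `q ≠ p`.

* `mat_inertia_mod` : `r ι ≡ r σ ^ j` modulo `𝔪 ^ n` for `ι ∈ I_P`;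
* `isUnipotentOnInertiaAt_of_trace_eq_two` : `tr r(σ) = 2`, `det r(σ) = 1` ⟹
  `(toAdic r).IsUnipotentOnInertiaAt q` (at ALL places over `q`);
* `isUnipotentOnInertiaAt_baseChangeAlong_of_trace` : the same for the push-forward along a local
  homomorphism `y` of a representation `ρ` with matrix model `r`.
-/

set_option autoImplicit false
set_option linter.style.haveILetI false

namespace Fermat.Agent.S38.IA.Gal

open Fermat.Agent.S56 Fermat.Agent.S56.H794 IsLocalRing Polynomial
open Fermat.Agent.S53 (M2 matEnd MatCont toAdic mapRep)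

variable {A : Type} [CommRing A] [IsLocalRing A]

section tame

variable {p q : ℕ} {P : ValuationSubring Qb} {φ σ : GQ} {r : GQ →* M2 A}

/-- Generation of inertia modulo `𝔪 ^ n`, matrix form. -/
theorem mat_inertia_mod (h : IsTamePair p q P φ σ) (hp : p.Prime) (hq : q.Prime) (hpq : p ≠ q)
    (hP : P.LiesOverPrime q) (hpA : (p : A) ∈ maximalIdeal A)
    (hr : MatCont r) (hres : MatResUnramAt P r) (n : ℕ) {ι : GQ}
    (hι : ι ∈ P.inertiaSubgroupIn ℚ) :
    ∃ j : ℕ, ∀ i k, (r ι - r σ ^ j) i k ∈ maximalIdeal A ^ n := by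
  obtain ⟨j, hj⟩ := adic_inertia_mod h hp hq hpq hP hpA (adicContinuous_matEnd hr)
    (resUnramAt_matEnd hres) n hι
  refine ⟨j, (forall_mulVec_mem_iff _ _).mp (fun v => ?_)⟩
  have h1 := hj v
  have e : (matEnd A) (r σ) ^ j = matEnd A (r σ ^ j) := by rw [map_pow]
  rw [MonoidHom.comp_apply, MonoidHom.comp_apply, e, matEnd_sub_apply] at h1
  exact h1

/-- **Unipotent at `σ` ⟹ unipotent on inertia at `q`.** -/
theorem isUnipotentOnInertiaAt_of_trace_eq_two [IsNoetherianRing A]
    (h : IsTamePair p q P φ σ) (hp : p.Prime) (hq : q.Prime) (hpq : p ≠ q)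
    (hP : P.LiesOverPrime q) (hpA : (p : A) ∈ maximalIdeal A)
    (hr : MatCont r) (hres : MatResUnramAt P r)
    (htr : (r σ).trace = 2) (hdet : (r σ).det = 1) :
    (toAdic r hr).IsUnipotentOnInertiaAt q := by
  intro P' hP' ι' hι'
  obtain ⟨g, ι, hι, rfl⟩ := Fermat.Agent.Lib.Cheb.H476.exists_conj_of_mem_inertia hq hP hP' hι'
  rw [Fermat.Agent.S59.H659.charpoly_toAdic]
  have hconj : r (g * ι * g⁻¹) = ((r.toHomUnits g : (M2 A)ˣ) : M2 A) * r ι *
      (((r.toHomUnits g)⁻¹ : (M2 A)ˣ) : M2 A) := by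
    rw [map_mul, map_mul, ← map_inv]
    rfl
  rw [hconj, Matrix.coe_units_inv, Matrix.charpoly_units_conj]
  exact m2_charpoly_eq_of_forall_congr (r ι) (r σ) htr hdet
    (fun n => mat_inertia_mod h hp hq hpq hP hpA hr hres n hι)

end tame

section Push

variable {R : Type} [CommRing R] [IsLocalRing R]

theorem matResUnramAt_mapRep {P : ValuationSubring Qb} {r : GQ →* M2 R}
    (hres : MatResUnramAt P r) (y : R →+* A) (hy : IsLocalHom y) :
    MatResUnramAt P (mapRep y r) := by
  intro ι hι i j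
  have h1 : (mapRep y r ι - 1) i j = y ((r ι - 1) i j) := by
    simp only [Fermat.Agent.S53.mapRep_apply, Matrix.sub_apply, Matrix.map_apply, map_sub]
    congr 1
    by_cases hij : i = j
    · subst hij; simp
    · simp [hij]
  rw [h1]
  exact Fermat.Agent.S56.H966.map_mem_maximalIdeal y hy (hres ι hι i j)

/-- **(UNIP)** for the push-forward of a representation with a matrix model. -/
theorem isUnipotentOnInertiaAt_baseChangeAlong_of_trace [IsNoetherianRing A]
    {p q : ℕ} {P : ValuationSubring Qb} {φ σ : GQ}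
    (h : IsTamePair p q P φ σ) (hp : p.Prime) (hq : q.Prime) (hpq : p ≠ q)
    (hP : P.LiesOverPrime q) (hpR : (p : R) ∈ maximalIdeal R)
    (ρ : GaloisRepAdic R) (r : GQ →* M2 R) (hr : MatCont r) (he : ρ.IsEquiv (toAdic r hr))
    (hres : MatResUnramAt P r) (hdet : (r σ).det = 1)
    (y : R →+* A) (hy : IsLocalHom y) (htr : ((r σ).map y).trace = 2) :
    (ρ.baseChangeAlong y hy).IsUnipotentOnInertiaAt q := by
  have he' := Fermat.Agent.S59.H659.baseChangeAlong_isEquiv_toAdic y hy ρ r hr he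
  refine Fermat.Agent.S56.H966.isUnipotentOnInertiaAt_of_isEquiv
    (Fermat.Agent.S59.H659.isEquiv_symm he') ?_
  have hpA : (p : A) ∈ maximalIdeal A := by
    have := Fermat.Agent.S56.H966.map_mem_maximalIdeal y hy hpR
    rwa [map_natCast] at this
  have hdet' : (mapRep y r σ).det = 1 := by
    rw [Fermat.Agent.S53.mapRep_apply]
    have := RingHom.map_det y (r σ)
    rw [hdet, map_one] at this
    exact this.symm
  exact isUnipotentOnInertiaAt_of_trace_eq_two h hp hq hpq hP hpA (hr.map y hy)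
    (matResUnramAt_mapRep hres y hy) htr hdet'

end Push

end Fermat.Agent.S38.IA.Gal
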