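import Fermat.Agent.S38.IA.Gal.IAGalSpec
import Fermat.Agent.S38.IA.Gal.H1.Unip
import Fermat.Agent.S38.IA.Gal.H1.TameGen
import Fermat.Agent.S38.H953.Pivot
import Fermat.Agent.S59.H126.Galois

/-!
# IA-GAL (helper1): the facts at one pivot

* `scalar_on_decomp` : `ρ̄` unramified at `P | q` with scalar Frobenius elements is scalar on the
  whole decomposition group `D_P`;
* `matResUnramAt_uFrame`, `phi_res_uFrame` : the universal matrices at inertia / at a Frobenius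
  with scalar residual value;
* `isPivotPres_of` : the structure `IsPivotPres` from traceless coordinates.
-/

set_option autoImplicit false
set_option linter.unusedSectionVars false
set_option linter.unusedVariables false
set_option linter.style.haveILetI false

namespace Fermat.Agent.S38.IA.Gal

open IsLocalRing Fermat.Agent.S56 Fermat.Agent.S56.H794 Fermat.Agent.S38.H953
open Fermat.Agent.S53 (M2 matEnd MatCont toAdic mapRep)

section Scalar

variable {k : Type} [Field k] (ρbar : ResidualGaloisRep k)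

theorem finiteLevel_residual : FiniteLevel ρbar.ρ.toHomUnits := by
  obtain ⟨L, hL, h⟩ := ρbar.factorsThroughFiniteLevel
  exact ⟨L, hL, fun τ hτ => Units.ext (h τ hτ)⟩

/-- `ρ̄` unramified at `P` with scalar Frobenius elements is scalar on `D_P`. -/
theorem scalar_on_decomp {p q : ℕ} (hp : p.Prime) (hq : q.Prime) (hpq : p ≠ q)
    (P : ValuationSubring Qb) (hP : P.LiesOverPrime q)
    (hunr : ∀ ι ∈ P.inertiaSubgroupIn ℚ, ρbar.ρ ι = 1)
    (hfrob : ∀ φ : GQ, P.IsFrobeniusAt φ q →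
      ∃ c : k, ρbar.ρ φ = c • (1 : Module.End k ρbar.V)) :
    ∀ τ ∈ P.decompositionSubgroup ℚ, ∃ a : k, ρbar.ρ τ = a • (1 : Module.End k ρbar.V) := by
  intro τ hτ
  obtain ⟨φ, σ, h⟩ := locGenExists p q hp hq hpq P hP
  obtain ⟨c, hc⟩ := hfrob φ h.frob
  have hpow : PPowOnInertia p P ρbar.ρ.toHomUnits := by
    intro ι hι
    refine ⟨0, ?_⟩
    rw [pow_zero, pow_one]
    exact Units.ext (hunr ι hι)
  obtain ⟨n, j, hnj⟩ := locGenDecomp.{0} p q hp hq hpq P hP φ σ h _ ρbar.ρ.toHomUnits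
    (finiteLevel_residual ρbar) hpow τ hτ
  have h1 := congrArg Units.val hnj
  rw [Units.val_mul, Units.val_pow_eq_pow_val, Units.val_pow_eq_pow_val] at h1
  have e1 : ((ρbar.ρ.toHomUnits τ : (Module.End k ρbar.V)ˣ) : Module.End k ρbar.V) = ρbar.ρ τ :=
    rfl
  have e2 : ((ρbar.ρ.toHomUnits φ : (Module.End k ρbar.V)ˣ) : Module.End k ρbar.V) = ρbar.ρ φ :=
    rfl
  have e3 : ((ρbar.ρ.toHomUnits σ : (Module.End k ρbar.V)ˣ) : Module.End k ρbar.V) = ρbar.ρ σ :=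
    rfl
  rw [e1, e2, e3, hunr σ h.mem, one_pow, mul_one, hc] at h1
  refine ⟨c ^ n, ?_⟩
  rw [h1, smul_pow, one_pow]

end Scalar

section Univ

variable {𝒪 : Type} [CommRing 𝒪] [IsDomain 𝒪] [IsDiscreteValuationRing 𝒪]
  [IsAdicComplete (maximalIdeal 𝒪) 𝒪]
  {ρbar : ResidualGaloisRep (ResidueField 𝒪)} {𝒟 : DefCond 𝒪}
  {DQ : GaloisRep.DeformationRingData 𝒪 ρbar 𝒟}

theorem sig_res_uFrame (F : UFrame DQ) (ι : GQ) (hι : ρbar.ρ ι = 1) (i j : Fin 2) :
    (F.rR ι - 1) i j ∈ maximalIdeal DQ.R := by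
  have h := pivX_mem F (fun _ : Unit => (1 : GQ)) (fun _ : Unit => ι) (fun _ : Unit => (1 : 𝒪))
    (fun _ => by rw [map_one, map_one, one_smul]) (fun _ => hι) ((), true, i, j)
  simpa only [pivX, if_true, Matrix.sub_apply] using h

theorem phi_res_uFrame (F : UFrame DQ) (φ : GQ) (a : 𝒪)
    (hφ : ρbar.ρ φ = residue 𝒪 a • (1 : Module.End (ResidueField 𝒪) ρbar.V)) (i j : Fin 2) :
    (F.rR φ - algebraMap 𝒪 DQ.R a • (1 : Matrix (Fin 2) (Fin 2) DQ.R)) i j ∈
      maximalIdeal DQ.R := by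
  have h := pivX_mem F (fun _ : Unit => φ) (fun _ : Unit => (1 : GQ)) (fun _ : Unit => a)
    (fun _ => hφ) (fun _ => map_one _) ((), false, i, j)
  simpa only [pivX, Bool.false_eq_true, if_false, Matrix.sub_apply, Matrix.smul_apply,
    smul_eq_mul] using h

theorem matResUnramAt_uFrame (F : UFrame DQ) (P : ValuationSubring Qb)
    (hunr : ∀ ι ∈ P.inertiaSubgroupIn ℚ, ρbar.ρ ι = 1) : MatResUnramAt P F.rR :=
  fun ι hι i j => sig_res_uFrame F ι (hunr ι hι) i j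

/-- **The structure at one pivot.** -/
theorem isPivotPres_of (p : ℕ) [Fact p.Prime] (F : UFrame DQ)
    (hdet : DQ.ρ.DetIsCyclotomic p)
    {q : ℕ} (hq : q.Prime) (hqp : q ≠ p) (P : ValuationSubring Qb) (hP : P.LiesOverPrime q)
    (φ σ : GQ) (htp : IsTamePair p q P φ σ)
    (hunr : ∀ ι ∈ P.inertiaSubgroupIn ℚ, ρbar.ρ ι = 1) (a : 𝒪)
    (ha : ρbar.ρ φ = residue 𝒪 a • (1 : Module.End (ResidueField 𝒪) ρbar.V))
    (v₀ v₁ v₂ w₀ w₁ w₂ : DQ.R) (hv : IsTraceless (F.rR σ) v₀ v₁ v₂)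
    (hw : IsTraceless (F.rR φ) w₀ w₁ w₂) :
    IsPivotPres q a DQ F φ σ v₀ v₁ v₂ w₀ w₁ w₂ := by
  have hp : p.Prime := Fact.out
  have hpR : (p : DQ.R) ∈ maximalIdeal DQ.R := hdet.1
  have hdetR : (toAdic F.rR F.hrR).DetIsCyclotomic p :=
    Fermat.Agent.S56.H966.detIsCyclotomic_of_isEquiv ⟨F.eR⟩ hdet
  have hres := matResUnramAt_uFrame F P hunr
  have hdS : (F.rR σ).det = 1 :=
    Fermat.Agent.S59.H126.det_inertia_eq_one (p := p) F.rR F.hrR hdetR hq hqp P hP htp.mem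
  refine ⟨hv, hw, hdS, ?_, ?_, fun i j => sig_res_uFrame F σ (hunr σ htp.mem) i j,
    fun i j => phi_res_uFrame F φ a ha i j, ?_⟩
  · exact Fermat.Agent.S59.H126.det_frobenius_eq (p := p) F.rR F.hrR hdetR hq hqp P hP htp.frob
  · have h1 := mat_rel htp hp hq (Ne.symm hqp) hP hpR F.hrR hres separated_of_noetherian
    rw [map_mul, map_mul] at h1
    have h2 : F.rR φ⁻¹ * F.rR φ = 1 := by rw [← map_mul, inv_mul_cancel, map_one]
    calc F.rR φ * F.rR σ = F.rR φ * F.rR σ * (F.rR φ⁻¹ * F.rR φ) := by rw [h2, mul_one]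
      _ = (F.rR φ * F.rR σ * F.rR φ⁻¹) * F.rR φ := by rw [mul_assoc, mul_assoc, mul_assoc]
      _ = F.rR σ ^ q * F.rR φ := by rw [h1]
  · intro A _ _ _ y hy htr
    exact isUnipotentOnInertiaAt_baseChangeAlong_of_trace htp hp hq (Ne.symm hqp) hP hpR DQ.ρ
      F.rR F.hrR ⟨F.eR⟩ hres hdS y hy htr

end Univ

end Fermat.Agent.S38.IA.Gal
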