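import Fermat.Agent.S38.IA.Gal.IAGalSpec
import Fermat.Agent.S38.IA.Gal.H1.MatAlg
import Fermat.Agent.S53.H596.PowerSeriesCNL

/-!
# IA-GAL (helper1): from the `8` matrix entries to the `6` traceless coordinates

`R` a complete local `𝒪`-algebra with the residue field of `𝒪`, `2 ∈ 𝒪ˣ`.  For every `j ∈ J` let
`Sg j`, `Ph j ∈ M₂(R)` with `Sg j ≡ 1`, `Ph j ≡ a_j` modulo `𝔪_R`, `det (Sg j) = 1`,
`det (Ph j) ≡ a_j²` modulo `𝔪_𝒪 R`, `a_j ∈ 𝒪ˣ`.  If `𝔪_R` is generated by `𝔪_𝒪`, the entries of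
`Sg j - 1`, `Ph j - a_j` and elements `y₁, …, y_g`, then it is generated by `𝔪_𝒪`, the TRACELESS
coordinates of `Sg j`, `Ph j` and the `y_i` (the traces are functions of the traceless
coordinates and of the determinants); hence

    `𝒪⟦v_{j,0..2}, w_{j,0..2}, x₁..x_g⟧ ↠ R`.
-/

set_option autoImplicit false
set_option linter.unusedSectionVars false
set_option linter.style.haveILetI false

namespace Fermat.Agent.S38.IA.Gal

noncomputable section

open IsLocalRing Fermat.Agent.S53.H596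

variable {𝒪 : Type} [CommRing 𝒪] [IsLocalRing 𝒪] [IsNoetherianRing 𝒪]
  [IsAdicComplete (maximalIdeal 𝒪) 𝒪]
  {R : Type} [CommRing R] [IsLocalRing R] [IsAdicComplete (maximalIdeal R) R] [Algebra 𝒪 R]

/-- The traceless coordinates of the matrices `Sg j`, `Ph j` (`h = 1/2`). -/
def tlCoord {J : Type} (h : R) (Sg Ph : J → Matrix (Fin 2) (Fin 2) R) : J × Fin 6 → R :=
  fun z => ![h * (Sg z.1 0 0 - Sg z.1 1 1), Sg z.1 0 1, Sg z.1 1 0,
    h * (Ph z.1 0 0 - Ph z.1 1 1), Ph z.1 0 1, Ph z.1 1 0] z.2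

/-- The entries of `Sg j - 1` (`b = true`) and of `Ph j - a_j` (`b = false`). -/
def entCoord {J : Type} (Sg Ph : J → Matrix (Fin 2) (Fin 2) R) (a : J → 𝒪) :
    J × Bool × Fin 2 × Fin 2 → R :=
  fun z => if z.2.1 then (Sg z.1 - 1) z.2.2.1 z.2.2.2
    else (Ph z.1 - algebraMap 𝒪 R (a z.1) • (1 : Matrix (Fin 2) (Fin 2) R)) z.2.2.1 z.2.2.2

theorem isUnit_add_of_mem_maximalIdeal {u x : R} (hu : IsUnit u) (hx : x ∈ maximalIdeal R) :
    IsUnit (u + x) := by
  by_contra hcon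
  have h1 : u + x ∈ maximalIdeal R := (mem_maximalIdeal _).2 hcon
  have h2 : u ∈ maximalIdeal R := by
    have := Ideal.sub_mem _ h1 hx
    rwa [add_sub_cancel_right] at this
  exact (mem_maximalIdeal _).1 h2 hu

theorem tlCoord_mem {J : Type} (h : R) (Sg Ph : J → Matrix (Fin 2) (Fin 2) R) (a : J → 𝒪)
    (hSg : ∀ j i k, (Sg j - 1) i k ∈ maximalIdeal R)
    (hPh : ∀ j i k, (Ph j - algebraMap 𝒪 R (a j) • (1 : Matrix (Fin 2) (Fin 2) R)) i k ∈
      maximalIdeal R) (z : J × Fin 6) : tlCoord h Sg Ph z ∈ maximalIdeal R := by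
  obtain ⟨j, i⟩ := z
  have s00 := hSg j 0 0
  have s11 := hSg j 1 1
  have s01 := hSg j 0 1
  have s10 := hSg j 1 0
  have p00 := hPh j 0 0
  have p11 := hPh j 1 1
  have p01 := hPh j 0 1
  have p10 := hPh j 1 0
  simp only [Matrix.sub_apply, Matrix.smul_apply, Matrix.one_apply_eq, smul_eq_mul, mul_one,
    ne_eq, zero_ne_one, one_ne_zero, not_false_eq_true, Matrix.one_apply_ne, mul_zero,
    sub_zero] at s00 s11 s01 s10 p00 p11 p01 p10
  have eS : Sg j 0 0 - Sg j 1 1 = (Sg j 0 0 - 1) - (Sg j 1 1 - 1) := by ring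
  have eP : Ph j 0 0 - Ph j 1 1 =
      (Ph j 0 0 - algebraMap 𝒪 R (a j)) - (Ph j 1 1 - algebraMap 𝒪 R (a j)) := by ring
  fin_cases i
  · show h * (Sg j 0 0 - Sg j 1 1) ∈ _
    rw [eS]
    exact Ideal.mul_mem_left _ _ (Ideal.sub_mem _ s00 s11)
  · exact s01
  · exact s10
  · show h * (Ph j 0 0 - Ph j 1 1) ∈ _
    rw [eP]
    exact Ideal.mul_mem_left _ _ (Ideal.sub_mem _ p00 p11)
  · exact p01
  · exact p10

/-- **From the entries to the traceless coordinates.** -/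
theorem exists_surjective_traceless [IsLocalHom (algebraMap 𝒪 R)] {J : Type} [Finite J] {g : ℕ}
    (hres : Function.Surjective (residue R ∘ algebraMap 𝒪 R))
    (h : 𝒪) (h2 : 2 * h = 1)
    (Sg Ph : J → Matrix (Fin 2) (Fin 2) R) (a : J → 𝒪) (y : Fin g → R)
    (hSg : ∀ j i k, (Sg j - 1) i k ∈ maximalIdeal R)
    (hPh : ∀ j i k, (Ph j - algebraMap 𝒪 R (a j) • (1 : Matrix (Fin 2) (Fin 2) R)) i k ∈
      maximalIdeal R)
    (hy : ∀ i, y i ∈ maximalIdeal R)
    (hdetS : ∀ j, (Sg j).det = 1)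
    (hdetP : ∀ j, (Ph j).det - algebraMap 𝒪 R (a j) ^ 2 ∈
      Ideal.map (algebraMap 𝒪 R) (maximalIdeal 𝒪))
    (ha : ∀ j, IsUnit (a j))
    (hgen : maximalIdeal R ≤ Ideal.map (algebraMap 𝒪 R) (maximalIdeal 𝒪) ⊔
      Ideal.span (Set.range (Sum.elim (entCoord Sg Ph a) y))) :
    ∃ γ : MvPowerSeries ((J × Fin 6) ⊕ Fin g) 𝒪 →ₐ[𝒪] R, Function.Surjective γ ∧
      (∀ j, IsTraceless (Sg j) (γ (MvPowerSeries.X (Sum.inl (j, 0))))
        (γ (MvPowerSeries.X (Sum.inl (j, 1)))) (γ (MvPowerSeries.X (Sum.inl (j, 2))))) ∧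
      (∀ j, IsTraceless (Ph j) (γ (MvPowerSeries.X (Sum.inl (j, 3))))
        (γ (MvPowerSeries.X (Sum.inl (j, 4)))) (γ (MvPowerSeries.X (Sum.inl (j, 5))))) ∧
      ∀ i, γ (MvPowerSeries.X (Sum.inr i)) = y i := by
  classical
  set h' : R := algebraMap 𝒪 R h with hh'
  have h2' : (2 : R) * h' = 1 := by
    have := congrArg (algebraMap 𝒪 R) h2
    rwa [map_mul, map_ofNat, map_one] at this
  have hu2 : IsUnit (2 : R) := IsUnit.of_mul_eq_one _ h2'
  have hu4 : IsUnit (4 : R) := by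
    have e : (4 : R) = 2 * 2 := by norm_num
    rw [e]
    exact hu2.mul hu2
  let x : (J × Fin 6) ⊕ Fin g → R := Sum.elim (tlCoord h' Sg Ph) y
  have hx : ∀ i, x i ∈ maximalIdeal R := by
    rintro (z | i)
    · exact tlCoord_mem h' Sg Ph a hSg hPh z
    · exact hy i
  let γ : MvPowerSeries ((J × Fin 6) ⊕ Fin g) 𝒪 →ₐ[𝒪] R :=
    evalCNL (R := 𝒪) (maximalIdeal R) x hx
  have hγX : ∀ i, γ (MvPowerSeries.X i) = x i := fun i => evalCNL_X _ _ _ i
  -- the ideal generated by the new coordinates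
  set I : Ideal R := Ideal.map (algebraMap 𝒪 R) (maximalIdeal 𝒪) ⊔ Ideal.span (Set.range x)
    with hI
  have hxI : ∀ i, x i ∈ I := fun i => Ideal.mem_sup_right (Ideal.subset_span ⟨i, rfl⟩)
  have hIle : I ≤ maximalIdeal R := by
    refine sup_le ?_ ?_
    · rw [Ideal.map_le_iff_le_comap]
      intro c hc
      exact Ideal.mem_comap.mpr (map_nonunit (algebraMap 𝒪 R) c hc)
    · rw [Ideal.span_le]
      rintro _ ⟨i, rfl⟩
      exact hx i
  -- the traceless coordinates in terms of the entries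
  have hv0 : ∀ j, (2 : R) * x (Sum.inl (j, 0)) = Sg j 0 0 - Sg j 1 1 := by
    intro j
    show (2 : R) * (h' * (Sg j 0 0 - Sg j 1 1)) = _
    rw [← mul_assoc, h2', one_mul]
  have hw0 : ∀ j, (2 : R) * x (Sum.inl (j, 3)) = Ph j 0 0 - Ph j 1 1 := by
    intro j
    show (2 : R) * (h' * (Ph j 0 0 - Ph j 1 1)) = _
    rw [← mul_assoc, h2', one_mul]
  have hv1 : ∀ j, x (Sum.inl (j, 1)) = Sg j 0 1 := fun j => rfl
  have hv2 : ∀ j, x (Sum.inl (j, 2)) = Sg j 1 0 := fun j => rfl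
  have hw1 : ∀ j, x (Sum.inl (j, 4)) = Ph j 0 1 := fun j => rfl
  have hw2 : ∀ j, x (Sum.inl (j, 5)) = Ph j 1 0 := fun j => rfl
  -- the diagonal entries
  have hSd : ∀ j, Sg j 0 0 - 1 ∈ I ∧ Sg j 1 1 - 1 ∈ I := by
    intro j
    refine m2_diag_sub_mem I (Sg j) 1 h' h2' ?_ ?_ ?_ ?_
    · rw [← hv0 j]; exact I.mul_mem_left _ (hxI _)
    · rw [← hv1 j]; exact hxI _
    · rw [hdetS j]; simp
    · have s00 := hSg j 0 0
      have s11 := hSg j 1 1
      simp only [Matrix.sub_apply, Matrix.one_apply_eq] at s00 s11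
      have e : Sg j 0 0 + Sg j 1 1 + 2 * 1 = 4 + ((Sg j 0 0 - 1) + (Sg j 1 1 - 1)) := by ring
      rw [e]
      exact isUnit_add_of_mem_maximalIdeal hu4 (Ideal.add_mem _ s00 s11)
  have hPd : ∀ j, Ph j 0 0 - algebraMap 𝒪 R (a j) ∈ I ∧ Ph j 1 1 - algebraMap 𝒪 R (a j) ∈ I := by
    intro j
    refine m2_diag_sub_mem I (Ph j) (algebraMap 𝒪 R (a j)) h' h2' ?_ ?_ ?_ ?_
    · rw [← hw0 j]; exact I.mul_mem_left _ (hxI _)
    · rw [← hw1 j]; exact hxI _
    · exact Ideal.mem_sup_left (hdetP j)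
    · have p00 := hPh j 0 0
      have p11 := hPh j 1 1
      simp only [Matrix.sub_apply, Matrix.smul_apply, Matrix.one_apply_eq, smul_eq_mul,
        mul_one] at p00 p11
      have e : Ph j 0 0 + Ph j 1 1 + 2 * algebraMap 𝒪 R (a j) =
          4 * algebraMap 𝒪 R (a j) + ((Ph j 0 0 - algebraMap 𝒪 R (a j)) +
            (Ph j 1 1 - algebraMap 𝒪 R (a j))) := by ring
      rw [e]
      exact isUnit_add_of_mem_maximalIdeal (hu4.mul ((ha j).map (algebraMap 𝒪 R)))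
        (Ideal.add_mem _ p00 p11)
  -- all the entries lie in `I`
  have hent : ∀ z, entCoord Sg Ph a z ∈ I := by
    rintro ⟨j, b, i, k⟩
    cases b
    · show (Ph j - algebraMap 𝒪 R (a j) • (1 : Matrix (Fin 2) (Fin 2) R)) i k ∈ I
      fin_cases i <;> fin_cases k <;>
        simp only [Matrix.sub_apply, Matrix.smul_apply, Matrix.one_apply_eq, smul_eq_mul,
          mul_one, ne_eq, zero_ne_one, one_ne_zero, not_false_eq_true, Matrix.one_apply_ne,
          mul_zero, sub_zero, Fin.zero_eta, Fin.mk_one, Fin.isValue]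
      · exact (hPd j).1
      · rw [← hw1 j]; exact hxI _
      · rw [← hw2 j]; exact hxI _
      · exact (hPd j).2
    · show (Sg j - 1) i k ∈ I
      fin_cases i <;> fin_cases k <;>
        simp only [Matrix.sub_apply, Matrix.one_apply_eq, ne_eq, zero_ne_one, one_ne_zero,
          not_false_eq_true, Matrix.one_apply_ne, sub_zero, Fin.zero_eta, Fin.mk_one,
          Fin.isValue]
      · exact (hSd j).1
      · rw [← hv1 j]; exact hxI _
      · rw [← hv2 j]; exact hxI _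
      · exact (hSd j).2
  have hmI : maximalIdeal R ≤ I := by
    refine hgen.trans (sup_le le_sup_left ?_)
    rw [Ideal.span_le]
    rintro _ ⟨z | i, rfl⟩
    · exact hent z
    · exact hxI (Sum.inr i)
  have hgen' : Ideal.map (algebraMap 𝒪 R) (maximalIdeal 𝒪) ⊔
      Ideal.span (Set.range fun i => γ (MvPowerSeries.X i)) = maximalIdeal R := by
    have hfun : (fun i => γ (MvPowerSeries.X i)) = x := funext hγX
    rw [hfun]
    exact le_antisymm hIle hmI
  refine ⟨γ, surjective_of_map_maximalIdeal γ hres hgen', fun j => ?_, fun j => ?_, fun i => ?_⟩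
  · exact ⟨by rw [hγX, hv0], by rw [hγX, hv1], by rw [hγX, hv2]⟩
  · exact ⟨by rw [hγX, hw0], by rw [hγX, hw1], by rw [hγX, hw2]⟩
  · rw [hγX]; rfl

end

end Fermat.Agent.S38.IA.Gal
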